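import Fermat.Agent.LT.V0.Ops

/-!
# The inputs of the spectral comparison at the auxiliary place
-/

set_option autoImplicit false
set_option linter.unusedSectionVars false

universe w u u' i'

namespace Fermat.Agent.LT.V0

open MeasureTheory ProbabilityTheory NumberField Matrix Filter
open scoped ENNReal NNReal MatrixGroups InnerProductSpace
open Fermat.Agent.LT.FA Fermat.Agent.LT.Sp Fermat.Agent.LT.Op Fermat.Agent.LT.Mp
open Fermat.Agent.LT.Loc Fermat.Agent.LT.Glob.LocFam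
open Fermat.Agent.LT.Glob hiding PK
open Fermat.Agent.LT.Mp.Ctx

/-! ### comparison of the two models -/

section Models

variable {R : Type u} [CommRing R] {O : Subring R} {ϖ : Rˣ} {B : Finset R} (h : Unif O ϖ B)
  {K : Subgroup PGL(2, R)} (hK : K = Iw O ϖ)

theorem hk_pow (F : HAlg K) (m : ℕ) : (F ^ m).hk = F.hk ^ m := map_pow toHk F m

theorem kU_hk : (V0.kU (⟨h, hK⟩ : IsIw O ϖ B K)).hk = Mp.kU h hK := by
  subst hK; rfl

theorem kZ_hk : (V0.kZ (⟨h, hK⟩ : IsIw O ϖ B K)).hk = Mp.kZ h hK := by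
  subst hK; rfl

end Models

variable {k : Type u} {E : Type u'} [Field k] [Field E] [Algebra k E] {ι : Type i'}
  {X : Ctx.{w} k E ι}

theorem single_congr {v : ι} {hv : v ∈ X.spl} {j : Fin 3} {F F' : BiInv (X.Uk.U v)}
    (e : F = F') {hF : F ∈ (X.alg v).carrier} {hF' : F' ∈ (X.alg v).carrier} :
    Ctx.single v hv j F hF = Ctx.single v hv j F' hF' := by
  subst e; rfl

/-- the multiplier of a symbol with one nontrivial component -/
theorem ME_single_jH (v : ι) (hv : v ∈ X.spl) (j : Fin 3) (Y : HAlg (X.Uk.U v))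
    (hY : Y.bi ∈ (X.alg v).carrier) :
    ME (Ctx.single v hv j Y.bi hY) =
      GFun.single v (jH (X.split v hv).pgl_split3 (X.prod v hv) j Y).hk := by
  rw [ME_single]
  congr 1
  apply Hk.toBiInv_injective
  fin_cases j <;> rfl

section Base

/-- the base symbol -/
theorem PE_one_v {v : ι} (hv : v ∈ X.spl) : (PE (1 : X.Sym)) v = 1 := by
  apply Hk.toBiInv_injective
  rw [Hk.toBiInv_one]
  change pE 1 v = _
  rw [pE_of_mem _ hv, gE_of_unit hv fun j => rfl]

theorem PK_one_v {v : ι} (hv : v ∈ X.spl) : (PK (1 : X.Sym)) v = 1 := by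
  apply Hk.toBiInv_injective
  rw [Hk.toBiInv_one]
  change pK 1 v = _
  rw [pK_of_mem _ hv, gk_of_unit fun j => rfl]

theorem PE_eq (G : X.Sym) : PE G = PE 1 * ME G := by rw [← PE_mul', one_mul]

theorem PK_eq (G : X.Sym) : PK G = PK 1 * MK G := by rw [← PK_mul', one_mul]

theorem PE_one_idem (hF : ∀ v, v ∉ X.spl → (X.F₀ v).conv (X.F₀ v) = X.F₀ v) :
    PE (1 : X.Sym) * PE 1 = PE 1 := by
  apply GFun.ext_f
  intro v
  rw [GFun.f_mul]
  change (pE 1 v).conv (pE 1 v) = pE 1 v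
  by_cases hv : v ∈ X.spl
  · rw [pE_of_mem _ hv, gE_of_unit hv fun j => rfl, BiInv.unit_conv]
  · rw [pE_of_not_mem _ hv, hF v hv]

theorem PE_one_twist (hc : X.A.IsCubic)
    (hF : ∀ v, v ∉ X.spl → ∀ g, (X.F₀ v).f (X.A.g v g) = (X.F₀ v).f g) (v : ι) (g : X.LE.G v) :
    ((PE (1 : X.Sym)).f v).f (X.A.g v g) = ((PE (1 : X.Sym)).f v).f g := by
  change (pE 1 v).f (X.A.g v g) = (pE 1 v).f g
  by_cases hv : v ∈ X.spl
  · rw [pE_of_mem _ hv, gE_of_unit hv fun j => rfl]
    exact unit_twist hc X.pres v g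
  · rw [pE_of_not_mem _ hv, hF v hv]

theorem ME_v_of_unit (G : X.Sym) {v : ι} (hG : ∀ l, G.G v l = BiInv.unit _) : (ME G) v = 1 := by
  apply Hk.toBiInv_injective
  rw [Hk.toBiInv_one]
  change mE G v = _
  by_cases hv : v ∈ X.spl
  · rw [mE_of_mem _ hv, gE_of_unit hv hG]
  · rw [mE_of_not_mem _ hv]

end Base

variable (d : V0Data X)

/-- the Iwahori subgroup at the auxiliary place -/
theorem isIw : IsIw (X.Lk.O d.v) d.ϖ d.B (X.Uk.U d.v) := ⟨d.unif, d.iw⟩

/-- the embeddings of the Hecke algebra at the auxiliary place -/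
noncomputable def jd (j : Fin 3) : HAlg (X.Uk.U d.v) →ₐ[ℂ] HAlg (X.UE.U d.v) :=
  jH (X.split d.v d.hv).pgl_split3 (X.prod d.v d.hv) j

/-- `Z` in the three variables -/
noncomputable def gZ (j : Fin 3) : GFun X.UE := GFun.single d.v (jd d (τ3 j) (V0.kZ (isIw d))).hk

/-- `e` in the three variables -/
noncomputable def ge (j : Fin 3) : GFun X.UE := GFun.single d.v (jd d (τ3 j) (V0.kE (isIw d))).hk

/-- `ω` in the three variables -/
noncomputable def go (j : Fin 3) : GFun X.UE := GFun.single d.v (jd d (τ3 j) (V0.kW (isIw d))).hk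

theorem U_hk : d.U = (V0.kU (isIw d)).hk := (kU_hk d.unif d.iw).symm

theorem Z_hk : d.Z = (V0.kZ (isIw d)).hk := (kZ_hk d.unif d.iw).symm

theorem ME_u (m : ℕ) : ME (d.u m) = GFun.single d.v (jd d 0 (V0.kU (isIw d) ^ m)).hk := by
  have e : (d.U ^ m).toBiInv = (V0.kU (isIw d) ^ m).bi := by
    rw [U_hk, ← hk_pow]; rfl
  have hm : (V0.kU (isIw d) ^ m).bi ∈ (X.alg d.v).carrier := by
    rw [← e]; exact d.U_pow_mem m
  rw [V0Data.u, single_congr e (hF' := hm)]
  exact ME_single_jH d.v d.hv 0 _ hm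

theorem ME_z : ME d.z = GFun.single d.v (jd d 0 (V0.kZ (isIw d))).hk := by
  have e : d.Z.toBiInv = (V0.kZ (isIw d)).bi := by
    rw [Z_hk]; rfl
  have hm : (V0.kZ (isIw d)).bi ∈ (X.alg d.v).carrier := by
    rw [← e]; exact d.Z_mem
  rw [V0Data.z, single_congr e (hF' := hm)]
  exact ME_single_jH d.v d.hv 0 _ hm

theorem gZ_zero : gZ d 0 = ME d.z := (ME_z d).symm

theorem PE_u (m : ℕ) : PE (d.u m) =
    (PE (1 : X.Sym)).update d.v (jd d 0 (V0.kU (isIw d) ^ m)).hk := by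
  rw [PE_eq, ME_u, GFun.mul_single, PE_one_v d.hv, one_mul]

theorem PK_u (m : ℕ) : PK (d.u m) = (PK (1 : X.Sym)).update d.v (d.U ^ m) := by
  rw [PK_eq, d.MK_u, GFun.mul_single, PK_one_v d.hv, one_mul]

theorem ge_commute (j : Fin 3) (G : X.Sym) (hG : ∀ l, G.G d.v l = BiInv.unit _) :
    Commute (ge d j) (ME G) :=
  GFun.commute_single (by rw [ME_v_of_unit G hG]; exact Commute.one_right _)

theorem go_commute (j : Fin 3) (G : X.Sym) (hG : ∀ l, G.G d.v l = BiInv.unit _) :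
    Commute (go d j) (ME G) :=
  GFun.commute_single (by rw [ME_v_of_unit G hG]; exact Commute.one_right _)

section NF

variable [NumberField k] [NumberField E] [IsTotallyComplex k] [IsTotallyComplex E]

omit [NumberField k] [IsTotallyComplex k] [IsTotallyComplex E] in
/-- **the recursion on the `E`-side** -/
theorem recE (m : ℕ) : (ME d.z).toDKer.comp (PE (d.u (m + 1))).toDKer =
    (PE (d.u (m + 2))).toDKer.add ((PE (d.u m)).toDKer.cmul ((d.B.card : ℝ) : ℂ)) := by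
  rw [← GFun.toDKer_mul]
  apply DKer.ext'
  intro x y
  change (ME d.z * PE (d.u (m + 1))).ker x y =
    (PE (d.u (m + 2))).ker x y + ((d.B.card : ℝ) : ℂ) * (PE (d.u m)).ker x y
  rw [ME_z, PE_u, PE_u, PE_u, GFun.single_mul_update, ← HAlg.hk_mul, ← map_mul, V0.kZ_mul_pow,
    map_add, map_smul, HAlg.hk_add, HAlg.hk_smul, GFun.ker_update_add, GFun.ker_update_smul,
    Complex.ofReal_natCast]
  rfl

omit [NumberField E] [IsTotallyComplex k] [IsTotallyComplex E] in
/-- **the recursion on the `k`-side** -/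
theorem recK (m : ℕ) : (MK d.z).toDKer.comp (PK (d.u (m + 1))).toDKer =
    (PK (d.u (m + 2))).toDKer.add ((PK (d.u m)).toDKer.cmul ((d.B.card : ℝ) : ℂ)) := by
  rw [← GFun.toDKer_mul]
  apply DKer.ext'
  intro x y
  change (MK d.z * PK (d.u (m + 1))).ker x y =
    (PK (d.u (m + 2))).ker x y + ((d.B.card : ℝ) : ℂ) * (PK (d.u m)).ker x y
  have e : d.Z * d.U ^ (m + 1) = d.U ^ (m + 2) + (d.B.card : ℂ) • d.U ^ m :=
    Mp.kZ_mul_pow d.unif d.iw m
  rw [d.MK_z, PK_u, PK_u, PK_u, GFun.single_mul_update, e, GFun.ker_update_add,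
    GFun.ker_update_smul, Complex.ofReal_natCast]
  rfl

omit [NumberField k] [IsTotallyComplex k] in
theorem gZ_adj (j : Fin 3) : (gZ d j).toDKer.adj = (gZ d j).toDKer :=
  single_adj d.v (isSA_jZ (X.split d.v d.hv) (X.prod d.v d.hv) (isIw d) (τ3 j))

omit [NumberField k] [IsTotallyComplex k] in
theorem ME_z_adj : (ME d.z).toDKer.adj = (ME d.z).toDKer := by
  rw [← gZ_zero, gZ_adj]

omit [NumberField E] [IsTotallyComplex E] in
theorem MK_z_adj : (MK d.z).toDKer.adj = (MK d.z).toDKer := by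
  rw [d.MK_z, Z_hk]
  exact single_adj d.v (isSA_kZ (isIw d))

variable [MeasurableSpace (LocFam.D X.UE)] [DiscreteMeasurableSpace (LocFam.D X.UE)]
  [Countable (LocFam.D X.UE)] {wE : HF E × LocFam.D X.UE → ℝ≥0}
  [IsFiniteMeasure (wtM (muY E (LocFam.D X.UE)) wE)]

omit [NumberField k] [IsTotallyComplex k] in
/-- **The structure at the auxiliary place**, in the form of `Spec.spec_out`. -/
theorem iwOps_data (hwE : IsWt PGL(2, E) (muY E (LocFam.D X.UE)) wE) (hc : X.A.IsCubic)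
    (hF : ∀ v, v ∉ X.spl → (X.F₀ v).conv (X.F₀ v) = X.F₀ v)
    (hFσ : ∀ v, v ∉ X.spl → ∀ g, (X.F₀ v).f (X.A.g v g) = (X.F₀ v).f g) :
    IwOps (fun j => opD hwE (gZ d j).toDKer) (fun j => opD hwE (ge d j).toDKer)
      (fun j => opD hwE (go d j).toDKer) (opD hwE (PE (d.u 0)).toDKer)
      ((twD (Auto.twist hc X.pres)).op hwE) ((d.B.card : ℝ) : ℂ) := by
  rw [d.u_zero, Complex.ofReal_natCast]
  exact iwOps (X.split d.v d.hv) (X.prod d.v d.hv) (isIw d) hwE hc X.pres (PE_one_v d.hv)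
    (PE_one_idem hF) (PE_one_twist hc hFσ)

end NF

end Fermat.Agent.LT.V0
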