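import Mathlib

/-!
# Relations in the Iwahori–Hecke algebra
-/

set_option autoImplicit false

namespace Fermat.Agent.LT.V0

section

variable {A : Type*} [Ring A] [Algebra ℂ A] {e w : A} {q : ℂ}

/-- the operator `T_s` -/
def relT (q : ℂ) (e : A) : A := (q + 1) • e - 1

/-- the operator `U = T_s ω` -/
def relU (q : ℂ) (e w : A) : A := relT q e * w

/-- the central element -/
def relZ (q : ℂ) (e w : A) : A := (q + 1) • (e * w + w * e - w)

theorem relZ_eq (q : ℂ) (e w : A) :
    relZ q e w = (q + 1) • (e * w * e - (1 - e) * w * (1 - e)) := by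
  rw [relZ]
  congr 1
  noncomm_ring

variable (he : e * e = e) (hw : w * w = 1)

include he in
theorem relZ_e : Commute (relZ q e w) e := by
  refine Commute.smul_left ?_ _
  change (e * w + w * e - w) * e = e * (e * w + w * e - w)
  rw [sub_mul, add_mul, mul_assoc w e e, he, mul_sub, mul_add, ← mul_assoc e e w, he]
  noncomm_ring

include hw in
theorem relZ_w : Commute (relZ q e w) w := by
  refine Commute.smul_left ?_ _
  change (e * w + w * e - w) * w = w * (e * w + w * e - w)
  rw [sub_mul, add_mul, mul_assoc e w w, hw, mul_sub, mul_add, ← mul_assoc w w e, hw]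
  noncomm_ring

include he hw in
theorem relZ_U : Commute (relZ q e w) (relU q e w) := by
  rw [relU, relT]
  exact ((((relZ_e he).smul_right _).sub_right (Commute.one_right _))).mul_right (relZ_w hw)

include he hw in
theorem relU_sq : relU q e w * relU q e w = relZ q e w * relU q e w - q • 1 := by
  have he' : ∀ x, e * (e * x) = e * x := fun x => by rw [← mul_assoc, he]
  have hw' : ∀ x, w * (w * x) = x := fun x => by rw [← mul_assoc, hw, one_mul]
  simp only [relU, relT, relZ, mul_add, add_mul, mul_sub, sub_mul, smul_mul_assoc, mul_smul_comm,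
    mul_assoc, he', hw', he, hw, one_mul, mul_one]
  module

include he hw in
theorem relU_pow_add_two (m : ℕ) :
    relU q e w ^ (m + 2) = relZ q e w * relU q e w ^ (m + 1) - q • relU q e w ^ m := by
  have h : relU q e w ^ (m + 2) = relU q e w * relU q e w * relU q e w ^ m := by
    rw [← pow_two, ← pow_add, add_comm 2]
  rw [h, relU_sq he hw, sub_mul, mul_assoc, ← pow_succ', smul_mul_assoc, one_mul]

include he hw in
theorem relZ_mul_pow (m : ℕ) :
    relZ q e w * relU q e w ^ (m + 1) = relU q e w ^ (m + 2) + q • relU q e w ^ m := by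
  rw [relU_pow_add_two he hw]
  abel

include he hw in
theorem relZ_pow_mul_pow_mem (j m : ℕ) (hj : j ≤ m) :
    relZ q e w ^ j * relU q e w ^ m ∈
      Submodule.span ℂ {x | ∃ i, m ≤ i + j ∧ i ≤ m + j ∧ x = relU q e w ^ i} := by
  induction j with
  | zero =>
    refine Submodule.subset_span ⟨m, le_refl _, le_refl _, ?_⟩
    rw [pow_zero, one_mul]
  | succ j ih =>
    have ih' := ih (by omega)
    rw [pow_succ', mul_assoc]
    have key : ∀ x ∈ Submodule.span ℂ {x | ∃ i, m ≤ i + j ∧ i ≤ m + j ∧ x = relU q e w ^ i},
        relZ q e w * x ∈ Submodule.span ℂ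
          {x | ∃ i, m ≤ i + (j + 1) ∧ i ≤ m + (j + 1) ∧ x = relU q e w ^ i} := by
      intro x hx
      induction hx using Submodule.span_induction with
      | mem x hx =>
        obtain ⟨i, h1, h2, rfl⟩ := hx
        obtain ⟨i, rfl⟩ : ∃ i', i = i' + 1 := ⟨i - 1, by omega⟩
        rw [relZ_mul_pow he hw]
        exact Submodule.add_mem _ (Submodule.subset_span ⟨i + 2, by omega, by omega, rfl⟩)
          (Submodule.smul_mem _ _ (Submodule.subset_span ⟨i, by omega, by omega, rfl⟩))
      | zero => rw [mul_zero]; exact Submodule.zero_mem _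
      | add x y _ _ hx hy => rw [mul_add]; exact Submodule.add_mem _ hx hy
      | smul c x _ hx => rw [mul_smul_comm]; exact Submodule.smul_mem _ _ hx
    exact key _ ih'

end

end Fermat.Agent.LT.V0
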