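import Fermat.Agent.LT.V0.Iw
import Fermat.Agent.LT.V0.Rel

/-!
# The elements `e`, `ω`, `U`, `Z` of the Iwahori–Hecke algebra and the support of `U ^ m`
-/

set_option autoImplicit false

universe u

namespace Fermat.Agent.LT.V0

open Matrix Fermat.Agent.LT.Loc Fermat.Agent.LT.Glob
open scoped MatrixGroups

section

variable {R : Type u} [CommRing R] {O : Subring R} {ϖ : Rˣ} {B : Finset R} (h : Unif O ϖ B)

/-- the projector onto the spherical vectors -/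
noncomputable def iwE : HAlg (Iw O ϖ) := ((B.card : ℂ) + 1)⁻¹ • indC (isReps h)

/-- the Atkin–Lehner operator -/
noncomputable def iwW : HAlg (Iw O ϖ) := indW (isNorm h.mem)

/-- `U` -/
noncomputable def iwU : HAlg (Iw O ϖ) := relU (B.card : ℂ) (iwE h) (iwW h)

/-- `Z` -/
noncomputable def iwZ : HAlg (Iw O ϖ) := relZ (B.card : ℂ) (iwE h) (iwW h)

omit [CommRing R] in
theorem card_add_one_ne_zero (B : Finset R) : (B.card : ℂ) + 1 ≠ 0 := by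
  exact_mod_cast Nat.succ_ne_zero B.card

theorem iwE_mul_self : iwE h * iwE h = iwE h := by
  rw [iwE, smul_mul_assoc, mul_smul_comm, indC_mul_self, smul_smul, smul_smul]
  congr 1
  rw [Fintype.card_option, Fintype.card_coe, Nat.cast_add, Nat.cast_one,
    mul_assoc, inv_mul_cancel₀ (card_add_one_ne_zero B), mul_one]

theorem iwW_mul_self : iwW h * iwW h = 1 :=
  indW_mul_self (isNorm h.mem) (by rw [mk_wI_sq]; exact one_mem _)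

theorem iwU_pow_add_two (m : ℕ) :
    iwU h ^ (m + 2) = iwZ h * iwU h ^ (m + 1) - (B.card : ℂ) • iwU h ^ m :=
  relU_pow_add_two (iwE_mul_self h) (iwW_mul_self h) m

theorem iwZ_mul_pow (m : ℕ) :
    iwZ h * iwU h ^ (m + 1) = iwU h ^ (m + 2) + (B.card : ℂ) • iwU h ^ m :=
  relZ_mul_pow (iwE_mul_self h) (iwW_mul_self h) m

theorem iwZ_comm_U : Commute (iwZ h) (iwU h) := relZ_U (iwE_mul_self h) (iwW_mul_self h)

theorem iwZ_comm_E : Commute (iwZ h) (iwE h) := relZ_e (iwE_mul_self h)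

theorem iwZ_comm_W : Commute (iwZ h) (iwW h) := relZ_w (iwW_mul_self h)

theorem iwZ_eq : iwZ h = ((B.card : ℂ) + 1) •
    (iwE h * iwW h * iwE h - (1 - iwE h) * iwW h * (1 - iwE h)) := relZ_eq _ _ _

theorem iwZ_pow_mul_pow_mem (j m : ℕ) (hj : j ≤ m) :
    iwZ h ^ j * iwU h ^ m ∈
      Submodule.span ℂ {x | ∃ i, m ≤ i + j ∧ i ≤ m + j ∧ x = iwU h ^ i} :=
  relZ_pow_mul_pow_mem (iwE_mul_self h) (iwW_mul_self h) j m hj

/-! ### Supports -/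

/-- matrices in the double coset of `diag(ϖ^m, 1)` -/
structure IsSU (O : Subring R) (ϖ : Rˣ) (m : ℕ) (h : GL (Fin 2) R) : Prop where
  h00 : ((ϖ⁻¹ : Rˣ) : R) * h 0 0 ∈ O
  h01 : h 0 1 ∈ O
  h10 : ((ϖ⁻¹ : Rˣ) : R) * h 1 0 ∈ O
  h11 : h 1 1 ∈ O
  h11' : ((ϖ⁻¹ : Rˣ) : R) * h 1 1 ∉ O
  det : GeneralLinearGroup.det h * (ϖ ^ m)⁻¹ ∈ OU O

/-- the double coset of `diag(ϖ^m, 1)` -/
def SU (O : Subring R) (ϖ : Rˣ) (m : ℕ) : Set PGL(2, R) :=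
  {g | ∃ h : GL (Fin 2) R, IsSU O ϖ m h ∧ ProjGenLinGroup.mk h = g}

include h

theorem unif_prime {x y : R} (hx : x ∈ O) (hy : y ∈ O) (hx' : ((ϖ⁻¹ : Rˣ) : R) * x ∉ O)
    (hy' : ((ϖ⁻¹ : Rˣ) : R) * y ∉ O) : ((ϖ⁻¹ : Rˣ) : R) * (x * y) ∉ O := by
  intro hxy
  rcases h.field x hx with h1 | ⟨z, hz, h1⟩
  · exact hx' h1
  · apply hy'
    have e : ((ϖ⁻¹ : Rˣ) : R) * y = z * (((ϖ⁻¹ : Rˣ) : R) * (x * y)) -
        y * (((ϖ⁻¹ : Rˣ) : R) * (x * z - 1)) := by ring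
    rw [e]
    exact O.sub_mem (O.mul_mem hz hxy) (O.mul_mem hy h1)

theorem unif_of_dvd {x : R} (hx : ((ϖ⁻¹ : Rˣ) : R) * x ∈ O) : x ∈ O := by
  have e : x = (ϖ : R) * (((ϖ⁻¹ : Rˣ) : R) * x) := by rw [Units.mul_inv_cancel_left]
  rw [e]
  exact O.mul_mem h.mem hx

theorem IsSU.mul {m n : ℕ} {a b : GL (Fin 2) R} (ha : IsSU O ϖ m a) (hb : IsSU O ϖ n b) :
    IsSU O ϖ (m + n) (a * b) := by
  have e : ∀ i j, (a * b : GL (Fin 2) R) i j = a i 0 * b 0 j + a i 1 * b 1 j := fun i j => by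
    rw [Units.val_mul, Matrix.mul_apply, Fin.sum_univ_two]
  have ha00 := unif_of_dvd h ha.h00
  have ha10 := unif_of_dvd h ha.h10
  have hb00 := unif_of_dvd h hb.h00
  have hb10 := unif_of_dvd h hb.h10
  refine ⟨?_, ?_, ?_, ?_, ?_, ?_⟩
  · rw [e]
    have e2 : ((ϖ⁻¹ : Rˣ) : R) * (a 0 0 * b 0 0 + a 0 1 * b 1 0) =
        a 0 0 * (((ϖ⁻¹ : Rˣ) : R) * b 0 0) + a 0 1 * (((ϖ⁻¹ : Rˣ) : R) * b 1 0) := by ring
    rw [e2]
    exact O.add_mem (O.mul_mem ha00 hb.h00) (O.mul_mem ha.h01 hb.h10)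
  · rw [e]
    exact O.add_mem (O.mul_mem ha00 hb.h01) (O.mul_mem ha.h01 hb.h11)
  · rw [e]
    have e2 : ((ϖ⁻¹ : Rˣ) : R) * (a 1 0 * b 0 0 + a 1 1 * b 1 0) =
        a 1 0 * (((ϖ⁻¹ : Rˣ) : R) * b 0 0) + a 1 1 * (((ϖ⁻¹ : Rˣ) : R) * b 1 0) := by ring
    rw [e2]
    exact O.add_mem (O.mul_mem ha10 hb.h00) (O.mul_mem ha.h11 hb.h10)
  · rw [e]
    exact O.add_mem (O.mul_mem ha10 hb.h01) (O.mul_mem ha.h11 hb.h11)
  · rw [e]
    intro hcon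
    apply unif_prime h ha.h11 hb.h11 ha.h11' hb.h11'
    have e2 : ((ϖ⁻¹ : Rˣ) : R) * (a 1 1 * b 1 1) =
        ((ϖ⁻¹ : Rˣ) : R) * (a 1 0 * b 0 1 + a 1 1 * b 1 1) -
          (((ϖ⁻¹ : Rˣ) : R) * a 1 0) * b 0 1 := by ring
    rw [e2]
    exact O.sub_mem hcon (O.mul_mem ha.h10 hb.h01)
  · have e3 : GeneralLinearGroup.det (a * b) * (ϖ ^ (m + n))⁻¹ =
        (GeneralLinearGroup.det a * (ϖ ^ m)⁻¹) * (GeneralLinearGroup.det b * (ϖ ^ n)⁻¹) := by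
      rw [map_mul, pow_add, mul_inv]
      exact mul_mul_mul_comm _ _ _ _
    rw [e3]
    exact mul_mem ha.det hb.det

theorem SU_mul {m n : ℕ} {a b : PGL(2, R)} (ha : a ∈ SU O ϖ m) (hb : b ∈ SU O ϖ n) :
    a * b ∈ SU O ϖ (m + n) := by
  obtain ⟨a, ha, rfl⟩ := ha
  obtain ⟨b, hb, rfl⟩ := hb
  exact ⟨a * b, ha.mul h hb, map_mul _ _ _⟩

omit h in
theorem det_mem_OU {g : GL (Fin 2) R} (hg : g ∈ GLO O) : GeneralLinearGroup.det g ∈ OU O := by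
  refine ⟨?_, (mem_GLO_iff.1 hg).2⟩
  show ((g : Matrix (Fin 2) (Fin 2) R)).det ∈ O
  rw [Matrix.det_fin_two]
  exact O.sub_mem (O.mul_mem (hg.1 _ _) (hg.1 _ _)) (O.mul_mem (hg.1 _ _) (hg.1 _ _))

/-- the diagonal entries of the Iwahori subgroup are invertible modulo `ϖ` -/
theorem GIw_diag {g : GL (Fin 2) R} (hg : g ∈ GIw O ϖ) :
    ((ϖ⁻¹ : Rˣ) : R) * g 0 0 ∉ O ∧ ((ϖ⁻¹ : Rˣ) : R) * g 1 1 ∉ O := by
  have hd := (mem_GLO_iff.1 hg.1).2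
  have hdet : ((GeneralLinearGroup.det g)⁻¹ : Rˣ).val * (g 0 0 * g 1 1 - g 0 1 * g 1 0) = 1 := by
    rw [← Matrix.det_fin_two]
    exact (GeneralLinearGroup.det g).inv_mul
  constructor
  · intro hcon
    apply h.not_mem
    have e : ((ϖ⁻¹ : Rˣ) : R) = ((GeneralLinearGroup.det g)⁻¹ : Rˣ).val *
        ((((ϖ⁻¹ : Rˣ) : R) * g 0 0) * g 1 1 - g 0 1 * (((ϖ⁻¹ : Rˣ) : R) * g 1 0)) := by
      linear_combination (-((ϖ⁻¹ : Rˣ) : R)) * hdet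
    rw [e]
    exact O.mul_mem hd (O.sub_mem (O.mul_mem hcon (hg.1.1 _ _)) (O.mul_mem (hg.1.1 _ _) hg.2))
  · intro hcon
    apply h.not_mem
    have e : ((ϖ⁻¹ : Rˣ) : R) = ((GeneralLinearGroup.det g)⁻¹ : Rˣ).val *
        (g 0 0 * (((ϖ⁻¹ : Rˣ) : R) * g 1 1) - g 0 1 * (((ϖ⁻¹ : Rˣ) : R) * g 1 0)) := by
      linear_combination (-((ϖ⁻¹ : Rˣ) : R)) * hdet
    rw [e]
    exact O.mul_mem hd (O.sub_mem (O.mul_mem (hg.1.1 _ _) hcon) (O.mul_mem (hg.1.1 _ _) hg.2))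

theorem IsSU.mul_right {m : ℕ} {a g : GL (Fin 2) R} (ha : IsSU O ϖ m a) (hg : g ∈ GIw O ϖ) :
    IsSU O ϖ m (a * g) := by
  have e : ∀ i j, (a * g : GL (Fin 2) R) i j = a i 0 * g 0 j + a i 1 * g 1 j := fun i j => by
    rw [Units.val_mul, Matrix.mul_apply, Fin.sum_univ_two]
  have ha00 := unif_of_dvd h ha.h00
  have ha10 := unif_of_dvd h ha.h10
  refine ⟨?_, ?_, ?_, ?_, ?_, ?_⟩
  · rw [e]
    have e2 : ((ϖ⁻¹ : Rˣ) : R) * (a 0 0 * g 0 0 + a 0 1 * g 1 0) =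
        (((ϖ⁻¹ : Rˣ) : R) * a 0 0) * g 0 0 + a 0 1 * (((ϖ⁻¹ : Rˣ) : R) * g 1 0) := by ring
    rw [e2]
    exact O.add_mem (O.mul_mem ha.h00 (hg.1.1 _ _)) (O.mul_mem ha.h01 hg.2)
  · rw [e]
    exact O.add_mem (O.mul_mem ha00 (hg.1.1 _ _)) (O.mul_mem ha.h01 (hg.1.1 _ _))
  · rw [e]
    have e2 : ((ϖ⁻¹ : Rˣ) : R) * (a 1 0 * g 0 0 + a 1 1 * g 1 0) =
        (((ϖ⁻¹ : Rˣ) : R) * a 1 0) * g 0 0 + a 1 1 * (((ϖ⁻¹ : Rˣ) : R) * g 1 0) := by ring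
    rw [e2]
    exact O.add_mem (O.mul_mem ha.h10 (hg.1.1 _ _)) (O.mul_mem ha.h11 hg.2)
  · rw [e]
    exact O.add_mem (O.mul_mem ha10 (hg.1.1 _ _)) (O.mul_mem ha.h11 (hg.1.1 _ _))
  · rw [e]
    intro hcon
    apply unif_prime h ha.h11 (hg.1.1 1 1) ha.h11' (GIw_diag h hg).2
    have e2 : ((ϖ⁻¹ : Rˣ) : R) * (a 1 1 * g 1 1) =
        ((ϖ⁻¹ : Rˣ) : R) * (a 1 0 * g 0 1 + a 1 1 * g 1 1) -
          (((ϖ⁻¹ : Rˣ) : R) * a 1 0) * g 0 1 := by ring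
    rw [e2]
    exact O.sub_mem hcon (O.mul_mem ha.h10 (hg.1.1 _ _))
  · have e3 : GeneralLinearGroup.det (a * g) * (ϖ ^ m)⁻¹ =
        (GeneralLinearGroup.det a * (ϖ ^ m)⁻¹) * GeneralLinearGroup.det g := by
      rw [map_mul]
      exact mul_right_comm _ _ _
    rw [e3]
    exact mul_mem ha.det (det_mem_OU hg.1)

theorem SU_mul_right {m : ℕ} {a g : PGL(2, R)} (ha : a ∈ SU O ϖ m) (hg : g ∈ Iw O ϖ) :
    a * g ∈ SU O ϖ m := by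
  obtain ⟨a, ha, rfl⟩ := ha
  obtain ⟨g, hg, rfl⟩ := hg
  exact ⟨a * g, ha.mul_right h hg, map_mul _ _ _⟩

/-- the support of `U` -/
theorem iwU_supp {g : PGL(2, R)} (hg : (iwU h).bi.f g ≠ 0) : g ∈ SU O ϖ 1 := by
  classical
  rw [iwU, relU, iwW, mul_indW, relT, HAlg.sub_f, HAlg.smul_f, iwE, HAlg.smul_f, indC_f,
    ← mul_assoc, mul_inv_cancel₀ (card_add_one_ne_zero B), one_mul, HAlg.one_bi,
    BiInv.unit_f] at hg
  have h1 : g * (ProjGenLinGroup.mk (wI ϖ))⁻¹ ∈ PO O := by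
    by_contra hcon
    rw [if_neg hcon, if_neg fun h' => hcon (Iw_le O ϖ h')] at hg
    exact hg (sub_self _)
  rw [if_pos h1] at hg
  have h2 : g * (ProjGenLinGroup.mk (wI ϖ))⁻¹ ∉ Iw O ϖ := by
    intro hcon
    rw [if_pos hcon] at hg
    exact hg (sub_self _)
  obtain ⟨k, hk, hkg⟩ := h1
  have h3 : g = ProjGenLinGroup.mk (k * wI ϖ) := by
    rw [map_mul, hkg, inv_mul_cancel_right]
  rw [← hkg, mk_mem_Iw_iff hk, mem_GIw, not_and] at h2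
  have h4 := h2 hk
  have e : ((k * wI ϖ : GL (Fin 2) R) : Matrix (Fin 2) (Fin 2) R) =
      !![k 0 1 * (ϖ : R), k 0 0; k 1 1 * (ϖ : R), k 1 0] := by
    rw [Units.val_mul, wI_coe]
    ext i j
    fin_cases i <;> fin_cases j <;> simp [Matrix.mul_apply, Fin.sum_univ_two]
  refine ⟨k * wI ϖ, ⟨?_, ?_, ?_, ?_, ?_, ?_⟩, h3.symm⟩
  · rw [e]
    show ((ϖ⁻¹ : Rˣ) : R) * (k 0 1 * (ϖ : R)) ∈ O
    rw [mul_comm (k 0 1), Units.inv_mul_cancel_left]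
    exact hk.1 _ _
  · rw [e]
    exact hk.1 0 0
  · rw [e]
    show ((ϖ⁻¹ : Rˣ) : R) * (k 1 1 * (ϖ : R)) ∈ O
    rw [mul_comm (k 1 1), Units.inv_mul_cancel_left]
    exact hk.1 _ _
  · rw [e]
    exact hk.1 1 0
  · rw [e]
    exact h4
  · have hdw : GeneralLinearGroup.det (wI ϖ) = -ϖ := by
      apply Units.ext
      show ((wI ϖ : GL (Fin 2) R) : Matrix (Fin 2) (Fin 2) R).det = _
      rw [wI_coe, Matrix.det_fin_two]
      simp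
    have e3 : GeneralLinearGroup.det (k * wI ϖ) * (ϖ ^ 1)⁻¹ =
        GeneralLinearGroup.det k * (-1) := by
      rw [map_mul, hdw, pow_one, mul_assoc, neg_mul, mul_inv_cancel]
    rw [e3]
    refine mul_mem (det_mem_OU hk) ⟨?_, ?_⟩
    · simp
    · simp

/-- the support of `U ^ m` -/
theorem iwU_pow_supp (m : ℕ) {g : PGL(2, R)} (hg : (iwU h ^ (m + 1)).bi.f g ≠ 0) :
    g ∈ SU O ϖ (m + 1) := by
  induction m generalizing g with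
  | zero =>
    rw [zero_add, pow_one] at hg
    exact iwU_supp h hg
  | succ m ih =>
    rw [pow_succ] at hg
    obtain ⟨a, ha, ha'⟩ := HAlg.mul_ne_zero_of hg
    have := SU_mul h (ih ha) (iwU_supp h ha')
    rwa [mul_inv_cancel_left] at this

/-- the support of `Z ^ j * U ^ m` -/
theorem iwZU_supp (j m : ℕ) (hj : j < m) {g : PGL(2, R)}
    (hg : (iwZ h ^ j * iwU h ^ m).bi.f g ≠ 0) :
    ∃ i, m ≤ i + j ∧ i ≤ m + j ∧ g ∈ SU O ϖ i := by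
  have key : ∀ x ∈ Submodule.span ℂ {x | ∃ i, m ≤ i + j ∧ i ≤ m + j ∧ x = iwU h ^ i},
      x.bi.f g ≠ 0 → ∃ i, m ≤ i + j ∧ i ≤ m + j ∧ g ∈ SU O ϖ i := by
    intro x hx
    induction hx using Submodule.span_induction with
    | mem x hx =>
      obtain ⟨i, h1, h2, rfl⟩ := hx
      obtain ⟨i, rfl⟩ : ∃ i', i = i' + 1 := ⟨i - 1, by omega⟩
      exact fun h3 => ⟨i + 1, h1, h2, iwU_pow_supp h i h3⟩
    | zero => exact fun h3 => absurd (HAlg.zero_f g) h3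
    | add x y _ _ hx hy =>
      intro h3
      by_cases h4 : x.bi.f g = 0
      · by_cases h5 : y.bi.f g = 0
        · rw [HAlg.add_f, h4, h5, add_zero] at h3
          exact absurd rfl h3
        · exact hy h5
      · exact hx h4
    | smul c x _ hx =>
      intro h3
      refine hx fun h4 => h3 ?_
      rw [HAlg.smul_f, h4, mul_zero]
  exact key _ (iwZ_pow_mul_pow_mem h j m hj.le) hg

end

end Fermat.Agent.LT.V0
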