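import Fermat.Agent.LT.V0.Emb
import Fermat.Agent.LT.Brg.Pt4

/-!
# Spherical functions at the auxiliary split place
-/

set_option autoImplicit false
set_option linter.unusedSectionVars false

universe w u i

namespace Fermat.Agent.LT.V0

open Matrix Fermat.Agent.LT.Loc Fermat.Agent.LT.Glob
open scoped MatrixGroups
open Fou (pN pA)

section Ring

variable {R R₀ : Type w} [CommRing R] [CommRing R₀] {s : R ≃+* R} {i : R₀ →+* R}
  {π : R →+* R₀}

theorem pr3_eq (l : Fin 3) (g : PGL(2, R)) :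
    pr3 (ProjGenLinGroup.map (n := Fin 2) (s : R →+* R)) (ProjGenLinGroup.map (n := Fin 2) π) l g =
      ProjGenLinGroup.map (pj s π l) g := by
  have h := pgl_map_pj (s := s) (π := π) g
  fin_cases l
  · exact h.1.symm
  · exact h.2.1.symm
  · exact h.2.2.symm

theorem map_pN {R' : Type*} [CommRing R'] (f : R →+* R') (b : R) :
    ProjGenLinGroup.map (n := Fin 2) f (pN b) = pN (f b) := by
  rw [pN, pN, ProjGenLinGroup.map_mk]
  congr 1
  apply Units.ext
  show ((tri 1 1 b : GL (Fin 2) R) : Matrix (Fin 2) (Fin 2) R).map f = _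
  rw [tri_coe, tri_coe]
  ext a b
  fin_cases a <;> fin_cases b <;> simp

theorem map_pA {R' : Type*} [CommRing R'] (f : R →+* R') (a : Rˣ) :
    ProjGenLinGroup.map (n := Fin 2) f (pA a) = pA (Units.map (f : R →* R') a) := by
  rw [pA, pA, ProjGenLinGroup.map_mk]
  congr 1
  apply Units.ext
  show ((tri a 1 0 : GL (Fin 2) R) : Matrix (Fin 2) (Fin 2) R).map f = _
  rw [tri_coe, tri_coe]
  ext a b
  fin_cases a <;> fin_cases b <;> simp

variable (S : SplitRing s i π)

/-- the element of `R` with one nonzero coordinate -/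
noncomputable def sg (j : Fin 3) (b : R₀) : R := S.equiv.symm (Pi.single j b)

theorem pj_sg (j l : Fin 3) (b : R₀) : pj s π l (sg S j b) = (Pi.single j b : Fin 3 → R₀) l := by
  rw [← S.equiv_apply, sg, RingEquiv.apply_symm_apply]

theorem sum_B3 {E : Type*} [AddCommMonoid E] (j : Fin 3) (B : Finset R₀) (f : R → E) :
    ∑ x ∈ S.B3 j B, f x = ∑ b ∈ B, f (sg S j b) := by
  rw [SplitRing.B3, Finset.sum_map, Finset.sum_map]
  rfl

theorem em_pN_pA (j : Fin 3) (b : R₀) (a : R₀ˣ) : em S.pgl_split3 j (pN b * pA a) =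
    pN (sg S j b) * pA (S.un3 j a) := by
  apply pr3_ext S.pgl_split3
  intro l
  rw [pr_em, pr3_eq, map_mul, map_pN, map_pA, pj_sg, S.pj_un3]
  by_cases hl : l = j
  · subst hl
    rw [Pi.mulSingle_eq_same, Pi.single_eq_same, Pi.mulSingle_eq_same]
  · rw [Pi.mulSingle_eq_of_ne hl, Pi.single_eq_of_ne hl, Pi.mulSingle_eq_of_ne hl,
      Fou.pN_zero, Fou.pA_one, one_mul]

theorem em_pA_inv (j : Fin 3) (a : R₀ˣ) : em S.pgl_split3 j (pA a⁻¹) = pA (S.un3 j a)⁻¹ := by
  have h := em_pN_pA S j 0 a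
  have h0 : sg S j (0 : R₀) = 0 := by
    rw [sg, Pi.single_zero, map_zero]
  rw [h0, Fou.pN_zero, Fou.pN_zero, one_mul, one_mul] at h
  rw [Fou.pA_inv, Fou.pA_inv, map_inv, h]

variable {O : Subring R} {O₀ : Subring R₀} (hO : IsProdO s π O O₀)
  {K : Subgroup PGL(2, R)} {K' : Subgroup PGL(2, R₀)}
  (hP : IsProd3 (ProjGenLinGroup.map (n := Fin 2) (s : R →+* R))
    (ProjGenLinGroup.map (n := Fin 2) π) K K')
  {ϖ : R₀ˣ} {B : Finset R₀} (h : IsIw O₀ ϖ B K')
  {E : Type*} [AddCommGroup E] [Module ℂ E]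

include hO in
/-- the spherical vectors -/
theorem act_kE_iff (φ : PGL(2, R) ⧸ K → E) :
    (∀ j, act (jH S.pgl_split3 hP j (kE h)) φ = φ) ↔
      ∀ (g : PGL(2, R)), ∀ c ∈ PO O, φ ((g * c : PGL(2, R)) : PGL(2, R) ⧸ K) =
        φ (g : PGL(2, R) ⧸ K) := by
  rw [← inv3_iff S.pgl_split3 (S.isProd3_PO hO)]
  refine forall_congr' fun j => ?_
  rw [← act_indC_jH_iff S.pgl_split3 hP h.isReps]
  have e : ((Fintype.card (Option B) : ℂ))⁻¹ • indC h.isReps = kE h := by
    rw [kE, Fintype.card_option, Fintype.card_coe, Nat.cast_add, Nat.cast_one]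
  rw [e]

include hO in
/-- **the Hecke operator on spherical vectors** -/
theorem act_kZ_jH (φ : PGL(2, R) ⧸ K → E)
    (hφ : ∀ (g : PGL(2, R)), ∀ c ∈ PO O, φ ((g * c : PGL(2, R)) : PGL(2, R) ⧸ K) =
        φ (g : PGL(2, R) ⧸ K)) (j : Fin 3) (g : PGL(2, R)) :
    act (jH S.pgl_split3 hP j (kZ h)) φ (g : PGL(2, R) ⧸ K) =
      ∑ x ∈ S.B3 j B, φ ((g * (pN x * pA (S.un3 j ϖ)) : PGL(2, R)) : PGL(2, R) ⧸ K) +
        φ ((g * pA (S.un3 j ϖ)⁻¹ : PGL(2, R)) : PGL(2, R) ⧸ K) := by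
  have hinv := (inv3_iff S.pgl_split3 (K := K) (S.isProd3_PO hO) φ).mpr hφ
  rw [act_jH]
  let ψ : PGL(2, R₀) ⧸ PO O₀ → E := fun x => Quotient.liftOn' x
    (fun y => φ ((g * em S.pgl_split3 j y : PGL(2, R)) : PGL(2, R) ⧸ K)) (by
      intro a b hab
      rw [QuotientGroup.leftRel_apply] at hab
      have h1 := hinv j (g * em S.pgl_split3 j a) _ hab
      rw [mul_assoc, ← map_mul, mul_inv_cancel_left] at h1
      exact h1.symm)
  have hψ : ∀ y : PGL(2, R₀), ψ (y : PGL(2, R₀) ⧸ PO O₀) =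
      φ ((g * em S.pgl_split3 j y : PGL(2, R)) : PGL(2, R) ⧸ K) := fun y => rfl
  have e : (fun x => φ (emq S.pgl_split3 hP j g x)) = fun x => ψ (qp h.isReps.le x) := by
    funext x
    induction x using QuotientGroup.induction_on with
    | H x => rfl
  rw [e, act_kZ_of_inv h ψ 1, Fintype.sum_option, add_comm, sum_B3, ← Finset.sum_coe_sort B]
  congr 1
  · refine Finset.sum_congr rfl fun b _ => ?_
    rw [nb, hψ, one_mul, Brg.rp_some, em_pN_pA]
  · rw [nb, hψ, one_mul, Brg.rp_none, em_pA_inv]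

end Ring

section Place

open MeasureTheory ProbabilityTheory NumberField
open scoped ENNReal NNReal
open FA Sp Op LocFam Brg
open Fou (IsInv HData HeckeAt EqvAt setv setv_same setv_ne setv_self setv_setv)

variable {F : Type u} [Field F] {ι : Type i} {L : LocFam.{w} F ι} {U : L.Level} {v : ι}
  [NumberField F]

theorem single_act_iff (φ : HF F × D U → ℂ) (A : HAlg (U.U v)) (c : ℂ) :
    (∀ (p : HF F) (d : D U), ∑ᶠ d', (GFun.single v A.hk).toDKer.κ d d' * φ (p, d') =
      c * φ (p, d)) ↔ ∀ (p : HF F) (d : D U), act A (slc φ v p d) = c • slc φ v p d :=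
  single_iff φ v A.hk c

variable {R₀ : Type w} [CommRing R₀] {s : L.R v ≃+* L.R v} {i : R₀ →+* L.R v}
  {π : L.R v →+* R₀} (S : SplitRing s i π) {O₀ : Subring R₀} (hO : IsProdO s π (L.O v) O₀)
  {K' : Subgroup PGL(2, R₀)}
  (hP : IsProd3 (ProjGenLinGroup.map (n := Fin 2) (s : L.R v →+* L.R v))
    (ProjGenLinGroup.map (n := Fin 2) π) (U.U v) K')
  {ϖ : R₀ˣ} {B : Finset R₀} (h : IsIw O₀ ϖ B K')

include hO in
/-- **spherical functions and the three projectors**, pointwise -/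
theorem eqvAt_iff_kE (φ : HF F × D U → ℂ) :
    (∀ j (p : HF F) (d : D U), ∑ᶠ d', (GFun.single v
      (jH S.pgl_split3 hP j (kE h)).hk).toDKer.κ d d' * φ (p, d') = φ (p, d)) ↔
      EqvAt v (PO (L.O v)) (fun _ => 1) φ := by
  have e : ∀ j, (∀ (p : HF F) (d : D U), ∑ᶠ d', (GFun.single v
      (jH S.pgl_split3 hP j (kE h)).hk).toDKer.κ d d' * φ (p, d') = φ (p, d)) ↔
      ∀ (p : HF F) (d : D U), act (jH S.pgl_split3 hP j (kE h)) (slc φ v p d) =
        slc φ v p d := by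
    intro j
    have h1 := single_act_iff φ (jH S.pgl_split3 hP j (kE h)) 1
    simp only [one_mul, one_smul] at h1
    exact h1
  rw [eqvAt_iff]
  simp only [e, one_smul]
  constructor
  · intro h1 p d
    exact (act_kE_iff S hO hP h _).mp fun j => h1 j p d
  · intro h1 j p d
    exact (act_kE_iff S hO hP h _).mpr (h1 p d) j

include hO in
/-- **the Hecke equation and `Z`**, pointwise -/
theorem heckeAt_iff_kZ {φ : HF F × D U → ℂ} (hE : EqvAt v (PO (L.O v)) (fun _ => 1) φ)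
    (j : Fin 3) (H : HData L v) (hϖ : H.ϖ = S.un3 j ϖ) (hS : H.S = S.B3 j B) (lam : ℂ) :
    (∀ (p : HF F) (d : D U), ∑ᶠ d', (GFun.single v
      (jH S.pgl_split3 hP j (kZ h)).hk).toDKer.κ d d' * φ (p, d') = lam * φ (p, d)) ↔
      HeckeAt H lam φ := by
  rw [single_act_iff]
  rw [eqvAt_iff] at hE
  simp only [one_smul] at hE
  have key := fun p d => act_kZ_jH S hO hP h (slc φ v p d) (hE p d) j
  constructor
  · intro h1 p d g hg
    have h2 := congrFun (h1 p d) (g : L.G v ⧸ U.U v)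
    rw [key, Pi.smul_apply, smul_eq_mul, ← hϖ, ← hS, ← hg, slc_self] at h2
    exact h2
  · intro h1 p d
    funext y
    induction y using QuotientGroup.induction_on with
    | H g =>
    rw [key, Pi.smul_apply, smul_eq_mul, ← hϖ, ← hS]
    have h2 := h1 p (setv d v (g : L.G v ⧸ U.U v)) g (setv_same _ _ _)
    simp only [setv_setv] at h2
    exact h2

variable [IsTotallyComplex F] [MeasurableSpace (D U)] [DiscreteMeasurableSpace (D U)]
  [Countable (D U)] [FinPart F (D U)] {w : HF F × D U → ℝ≥0}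
  {f : HA PGL(2, F) (muY F (D U))} {φ : HF F × D U → ℂ}

include hO in
/-- **Vectors fixed by the three projectors** at the auxiliary place. -/
theorem isRep_kE_iff (hw : IsWt PGL(2, F) (muY F (D U)) w)
    [IsFiniteMeasure (wtM (muY F (D U)) w)] (hf : IsRep f φ) :
    (∀ j, opD hw (GFun.single v (jH S.pgl_split3 hP j (kE h)).hk).toDKer f = f) ↔
      EqvAt v (PO (L.O v)) (fun _ => 1) φ := by
  rw [← eqvAt_iff_kE S hO hP h]
  exact forall_congr' fun j => hf.T_iff_one hw _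

include hO in
/-- **Eigenvectors of `Z_j` at the auxiliary place.** -/
theorem isRep_kZ_iff (hw : IsWt PGL(2, F) (muY F (D U)) w)
    [IsFiniteMeasure (wtM (muY F (D U)) w)] (hf : IsRep f φ)
    (hE : EqvAt v (PO (L.O v)) (fun _ => 1) φ) (j : Fin 3) (H : HData L v)
    (hϖ : H.ϖ = S.un3 j ϖ) (hS : H.S = S.B3 j B) (lam : ℂ) :
    opD hw (GFun.single v (jH S.pgl_split3 hP j (kZ h)).hk).toDKer f = lam • f ↔
      HeckeAt H lam φ := by
  rw [hf.T_iff hw, heckeAt_iff_kZ S hO hP h hE j H hϖ hS]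

end Place

end Fermat.Agent.LT.V0
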