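import Fermat.Agent.LT.V0.IwAlg

/-!
# Elements of `SU` are hyperbolic
-/

set_option autoImplicit false

universe u

namespace Fermat.Agent.LT.V0

open Matrix Fermat.Agent.LT.Loc Fermat.Agent.LT.Glob
open scoped MatrixGroups

section

variable {R : Type u} [CommRing R] {O : Subring R} {ϖ : Rˣ} {B : Finset R} (h : Unif O ϖ B)

include h

/-- the trace of an element of `SU` is nonzero modulo `ϖ` -/
theorem IsSU.trace {m : ℕ} {a : GL (Fin 2) R} (ha : IsSU O ϖ m a) :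
    a 0 0 + a 1 1 ∈ O ∧ ((ϖ⁻¹ : Rˣ) : R) * (a 0 0 + a 1 1) ∉ O := by
  refine ⟨O.add_mem (unif_of_dvd h ha.h00) ha.h11, fun hcon => ha.h11' ?_⟩
  have e : ((ϖ⁻¹ : Rˣ) : R) * a 1 1 = ((ϖ⁻¹ : Rˣ) : R) * (a 0 0 + a 1 1) -
      ((ϖ⁻¹ : Rˣ) : R) * a 0 0 := by ring
  rw [e]
  exact O.sub_mem hcon ha.h00

end

section Field

variable {K : Type u} [Field K] {O : Subring K} {ϖ : Kˣ} {B : Finset K} (h : Unif O ϖ B)
  (hval : ∀ x : K, x ∈ O ∨ x⁻¹ ∈ O)

/-- the valuation ring -/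
def vring (O : Subring K) (hval : ∀ x : K, x ∈ O ∨ x⁻¹ ∈ O) : ValuationSubring K :=
  { O with mem_or_inv_mem' := hval }

theorem mem_vring {x : K} : x ∈ vring O hval ↔ x ∈ O := Iff.rfl

theorem val_le_one {x : K} : (vring O hval).valuation x ≤ 1 ↔ x ∈ O :=
  (vring O hval).valuation_le_one_iff x

include h in
theorem val_pi_lt : (vring O hval).valuation (ϖ : K) < 1 := by
  have h1 := h.not_mem
  rw [← val_le_one hval, Units.val_inv_eq_inv_val, map_inv₀, not_le] at h1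
  have h0 : (vring O hval).valuation (ϖ : K) ≠ 0 := (map_ne_zero _).mpr ϖ.ne_zero
  exact (one_lt_inv₀ (zero_lt_iff.mpr h0)).mp h1

include h in
theorem val_eq_one {t : K} (ht : t ∈ O) (ht' : ((ϖ⁻¹ : Kˣ) : K) * t ∉ O) :
    (vring O hval).valuation t = 1 := by
  rcases h.field t ht with h1 | ⟨y, hy, h1⟩
  · exact absurd h1 ht'
  · set v := (vring O hval).valuation
    have e : t * y = 1 + (ϖ : K) * (((ϖ⁻¹ : Kˣ) : K) * (t * y - 1)) := by
      rw [Units.mul_inv_cancel_left]; ring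
    have h2 : v ((ϖ : K) * (((ϖ⁻¹ : Kˣ) : K) * (t * y - 1))) < 1 := by
      rw [map_mul]
      have h3 : v (((ϖ⁻¹ : Kˣ) : K) * (t * y - 1)) ≤ 1 := (val_le_one hval).mpr h1
      exact mul_lt_one_of_lt_of_le (val_pi_lt h hval) h3
    have h4 : v (t * y) = 1 := by
      rw [e]
      rw [Valuation.map_add_eq_of_lt_left, map_one]
      rwa [map_one]
    rw [map_mul] at h4
    have h5 : v t ≤ 1 := (val_le_one hval).mpr ht
    have h6 : v y ≤ 1 := (val_le_one hval).mpr hy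
    by_contra h7
    have h8 : v t < 1 := lt_of_le_of_ne h5 h7
    exact (mul_lt_one_of_lt_of_le h8 h6).ne h4

/-- two numbers with unit sum and product of valuation `ϖ ^ m` -/
theorem val_of_sum_prod {a d : K} {m : ℕ} (hϖ : (vring O hval).valuation (ϖ : K) < 1)
    (hm : 1 ≤ m) (hs : (vring O hval).valuation (a + d) = 1)
    (hp : (vring O hval).valuation (a * d) = (vring O hval).valuation (ϖ : K) ^ m) :
    ((vring O hval).valuation a = 1 ∧
      (vring O hval).valuation d = (vring O hval).valuation (ϖ : K) ^ m) ∨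
    ((vring O hval).valuation d = 1 ∧
      (vring O hval).valuation a = (vring O hval).valuation (ϖ : K) ^ m) := by
  set v := (vring O hval).valuation
  have hlt : v (ϖ : K) ^ m < 1 := pow_lt_one₀ zero_le hϖ (by omega)
  rw [map_mul] at hp
  rcases lt_trichotomy (v a) (v d) with hlt' | heq | hgt
  · right
    rw [Valuation.map_add_eq_of_lt_right v hlt'] at hs
    rw [hs, mul_one] at hp
    exact ⟨hs, hp⟩
  · exfalso
    have h1 : v (a + d) ≤ max (v a) (v d) := v.map_add a d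
    rw [hs, heq, max_self] at h1
    rw [heq] at hp
    have h2 : (1 : _) ≤ v d * v d := one_le_mul_of_one_le_of_one_le h1 h1
    rw [hp] at h2
    exact absurd hlt (not_lt.mpr h2)
  · left
    rw [Valuation.map_add_eq_of_lt_left v hgt] at hs
    rw [hs, one_mul] at hp
    exact ⟨hs, hp⟩

include h in
/-- **Hyperbolicity**: an upper triangular element conjugate into `SU m` -/
theorem val_of_conj_mem_SU {m : ℕ} (hm : 1 ≤ m) {γ : GL (Fin 2) K} (hγ : γ 1 0 = 0)
    {x : PGL(2, K)} (hx : x⁻¹ * ProjGenLinGroup.mk γ * x ∈ SU O ϖ m) :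
    (vring O hval).valuation (γ 0 0 / γ 1 1) = (vring O hval).valuation (ϖ : K) ^ m ∨
    (vring O hval).valuation (γ 1 1 / γ 0 0) = (vring O hval).valuation (ϖ : K) ^ m := by
  set v := (vring O hval).valuation with hv
  obtain ⟨a, ha, e⟩ := hx
  induction x using ProjGenLinGroup.induction_on with
  | mk ξ =>
  rw [← map_inv, ← map_mul, ← map_mul] at e
  obtain ⟨u, hu⟩ := ProjGenLinGroup.mk_eq_mk_iff.mp e
  -- `ξ⁻¹ γ ξ = a * sc u`
  have e1 : γ = sc u * (ξ * a * ξ⁻¹) := by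
    have : ξ⁻¹ * γ * ξ = a * sc u := hu.symm
    have e2 : γ = ξ * (ξ⁻¹ * γ * ξ) * ξ⁻¹ := by group
    rw [e2, this, ← sc_comm]
    simp only [mul_assoc]
    rw [← mul_assoc ξ, ← sc_comm, mul_assoc]
  have htr : γ 0 0 + γ 1 1 = (u : K) * (a 0 0 + a 1 1) := by
    have h1 : (γ : Matrix (Fin 2) (Fin 2) K).trace =
        (u : K) * (a : Matrix (Fin 2) (Fin 2) K).trace := by
      have e3 : (γ : Matrix (Fin 2) (Fin 2) K) = (u : K) • ((ξ : Matrix (Fin 2) (Fin 2) K) *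
          (a : Matrix (Fin 2) (Fin 2) K) * ((ξ⁻¹ : GL (Fin 2) K) : Matrix (Fin 2) (Fin 2) K)) := by
        conv_lhs => rw [e1]
        rw [Units.val_mul, sc_coe, Units.val_mul, Units.val_mul, smul_mul_assoc, one_mul]
      rw [e3, Matrix.trace_smul, smul_eq_mul, Matrix.trace_mul_comm, ← mul_assoc, ← Units.val_mul,
        inv_mul_cancel, Units.val_one, one_mul]
    rw [Matrix.trace_fin_two, Matrix.trace_fin_two] at h1
    exact h1
  have hdet : γ 0 0 * γ 1 1 = (u : K) ^ 2 * (GeneralLinearGroup.det a : K) := by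
    have h1 : GeneralLinearGroup.det γ = u ^ 2 * GeneralLinearGroup.det a := by
      conv_lhs => rw [e1]
      rw [map_mul, map_mul, map_mul, map_inv, mul_inv_cancel_comm]
      congr 1
      apply Units.ext
      show ((sc u : GL (Fin 2) K) : Matrix (Fin 2) (Fin 2) K).det = _
      rw [sc_coe, Matrix.det_fin_two]
      simp [pow_two]
    have h2 := congrArg (Units.val) h1
    have h3 : (GeneralLinearGroup.det γ : K) = γ 0 0 * γ 1 1 := by
      show (γ : Matrix (Fin 2) (Fin 2) K).det = _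
      rw [Matrix.det_fin_two, hγ, mul_zero, sub_zero]
    rw [← h3, h2]
    simp
  have hva : v (GeneralLinearGroup.det a : K) = v (ϖ : K) ^ m := by
    have h1 := ha.det
    have h2 : v ((GeneralLinearGroup.det a * (ϖ ^ m)⁻¹ : Kˣ) : K) = 1 := by
      refine le_antisymm ((val_le_one hval).mpr h1.1) ?_
      have h3 : v (((GeneralLinearGroup.det a * (ϖ ^ m)⁻¹)⁻¹ : Kˣ) : K) ≤ 1 :=
        (val_le_one hval).mpr h1.2
      rw [Units.val_inv_eq_inv_val, map_inv₀] at h3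
      have h4 : v ((GeneralLinearGroup.det a * (ϖ ^ m)⁻¹ : Kˣ) : K) ≠ 0 :=
        (map_ne_zero _).mpr (Units.ne_zero _)
      exact (inv_le_one₀ (zero_lt_iff.mpr h4)).mp h3
    rw [Units.val_mul, Units.val_inv_eq_inv_val, map_mul, map_inv₀, Units.val_pow_eq_pow_val,
      map_pow] at h2
    have h5 : v (ϖ : K) ^ m ≠ 0 := pow_ne_zero _ ((map_ne_zero _).mpr ϖ.ne_zero)
    exact (mul_inv_eq_one₀ h5).mp h2
  have htr' := ha.trace h
  have hvt := val_eq_one h hval htr'.1 htr'.2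
  have hu0 : (u : K) ≠ 0 := u.ne_zero
  -- rescale
  have hs : v ((u : K)⁻¹ * γ 0 0 + (u : K)⁻¹ * γ 1 1) = 1 := by
    rw [← mul_add, htr, inv_mul_cancel_left₀ hu0]
    exact hvt
  have hp : v (((u : K)⁻¹ * γ 0 0) * ((u : K)⁻¹ * γ 1 1)) = v (ϖ : K) ^ m := by
    have : ((u : K)⁻¹ * γ 0 0) * ((u : K)⁻¹ * γ 1 1) = (GeneralLinearGroup.det a : K) := by
      have : ((u : K)⁻¹ * γ 0 0) * ((u : K)⁻¹ * γ 1 1) = (u : K)⁻¹ ^ 2 * (γ 0 0 * γ 1 1) := by ring
      rw [this, hdet, ← mul_assoc, ← mul_pow, inv_mul_cancel₀ hu0, one_pow, one_mul]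
    rw [this, hva]
  have hne : v ((u : K)⁻¹) ≠ 0 := (map_ne_zero _).mpr (inv_ne_zero hu0)
  rcases val_of_sum_prod hval (val_pi_lt h hval) hm hs hp with ⟨h1, h2⟩ | ⟨h1, h2⟩
  · right
    have e4 : γ 1 1 / γ 0 0 = ((u : K)⁻¹ * γ 1 1) / ((u : K)⁻¹ * γ 0 0) := by
      rw [mul_div_mul_left _ _ (inv_ne_zero hu0)]
    rw [e4, map_div₀, h1, h2, div_one]
  · left
    have e4 : γ 0 0 / γ 1 1 = ((u : K)⁻¹ * γ 0 0) / ((u : K)⁻¹ * γ 1 1) := by
      rw [mul_div_mul_left _ _ (inv_ne_zero hu0)]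
    rw [e4, map_div₀, h1, h2, div_one]

include h in
/-- elements conjugate into `SU` have nonzero trace -/
theorem trace_ne_zero_of_conj_mem_SU {m : ℕ} {γ : GL (Fin 2) K}
    {x : PGL(2, K)} (hx : x⁻¹ * ProjGenLinGroup.mk γ * x ∈ SU O ϖ m) :
    (γ : Matrix (Fin 2) (Fin 2) K).trace ≠ 0 := by
  obtain ⟨a, ha, e⟩ := hx
  induction x using ProjGenLinGroup.induction_on with
  | mk ξ =>
  rw [← map_inv, ← map_mul, ← map_mul] at e
  obtain ⟨u, hu⟩ := ProjGenLinGroup.mk_eq_mk_iff.mp e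
  have e1 : (ξ⁻¹ * γ * ξ : GL (Fin 2) K) = a * sc u := hu.symm
  intro h0
  have e3 := congrArg (fun M : GL (Fin 2) K => (M : Matrix (Fin 2) (Fin 2) K).trace) e1
  simp only [Units.val_mul] at e3
  rw [Matrix.trace_mul_comm, ← mul_assoc, ← Units.val_mul, mul_inv_cancel, Units.val_one, one_mul,
    h0, sc_coe, mul_smul_comm, mul_one, Matrix.trace_smul, smul_eq_mul] at e3
  have h1 : (a : Matrix (Fin 2) (Fin 2) K).trace = 0 :=
    (mul_eq_zero.mp e3.symm).resolve_left u.ne_zero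
  rw [Matrix.trace_fin_two] at h1
  apply (ha.trace h).2
  have : a 0 0 + a 1 1 = 0 := h1
  rw [this, mul_zero]
  exact O.zero_mem

end Field

end Fermat.Agent.LT.V0
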