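import Fermat.Agent.LT.V0.Data
import Fermat.Agent.LT.Mp.Fam

/-!
# The structure at the auxiliary place, for the concrete context
-/

set_option autoImplicit false
set_option linter.unusedSectionVars false

universe u

namespace Fermat.Agent.LT.V0

open MeasureTheory ProbabilityTheory NumberField Matrix Filter IsDedekindDomain
open scoped ENNReal NNReal MatrixGroups InnerProductSpace
open Fermat.Agent.LT.FA Fermat.Agent.LT.Sp Fermat.Agent.LT.Op Fermat.Agent.LT.Mp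
open Fermat.Agent.LT.Loc Fermat.Agent.LT.Glob.LocFam Fermat.Agent.LT.Brg
open Fermat.Agent.LT.Glob hiding PK
open Fermat.Agent.LT.Mp.Ctx

variable {k E : Type u} [Field k] [NumberField k] [Field E] [NumberField E] [Algebra k E]
  {σ : E ≃ₐ[k] E} (h : Gal3 σ) (b : Bad σ)

theorem F₀_good {v : HeightOneSpectrum (𝓞 k)} (hb : v ∉ b.bad) (h0 : v ≠ b.v0) :
    (b.X h).F₀ v = BiInv.unit _ := (b.P_isGood h hb h0).F

theorem not_v0_of_not_spl {v : HeightOneSpectrum (𝓞 k)} (hv : v ∉ (b.X h).spl) : v ≠ b.v0 := by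
  rintro rfl
  exact hv (b.v0_mem_spl h)

variable {J : ∀ v : HeightOneSpectrum (𝓞 k), Subgroup ((locE k E).G v)}
  {ψ : ∀ v : HeightOneSpectrum (𝓞 k), (locE k E).G v → ℂ}
  (hB : ∀ v ∈ b.bad, ∃ hC : CharOn ((b.X h).UE.U v) (J v) (ψ v),
    ∀ g, ((b.X h).F₀ v).f g = hC.eB.f g)

include hB

theorem F₀_idem (v : HeightOneSpectrum (𝓞 k)) (hv : v ∉ (b.X h).spl) :
    ((b.X h).F₀ v).conv ((b.X h).F₀ v) = (b.X h).F₀ v := by
  by_cases hb : v ∈ b.bad
  · obtain ⟨hC, hC'⟩ := hB v hb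
    have e : (b.X h).F₀ v = hC.eB := BiInv.ext' hC'
    rw [e]
    have h1 := congrArg Hk.toBiInv hC.eH_mul_eH
    rw [Hk.toBiInv_mul] at h1
    exact h1
  · rw [F₀_good h b hb (not_v0_of_not_spl h b hv), BiInv.unit_conv]

theorem F₀_twist (hJ : ∀ v ∈ b.bad, ∀ j ∈ J v, (autoE σ).g v j ∈ J v)
    (hψ : ∀ v ∈ b.bad, ∀ j ∈ J v, ψ v ((autoE σ).g v j) = ψ v j)
    (v : HeightOneSpectrum (𝓞 k)) (hv : v ∉ (b.X h).spl) (g : (b.X h).LE.G v) :
    ((b.X h).F₀ v).f ((b.X h).A.g v g) = ((b.X h).F₀ v).f g := by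
  have hc : (autoE σ).IsCubic := Mp.Bad.isCubic h b
  by_cases hb : v ∈ b.bad
  · obtain ⟨hC, hC'⟩ := hB v hb
    rw [hC', hC']
    change hC.eB.f ((autoE σ).g v g) = hC.eB.f g
    by_cases hg : g ∈ J v
    · rw [hC.eB_of_mem hg, hC.eB_of_mem (hJ v hb g hg), hψ v hb g hg]
    · rw [hC.eB_of_notMem hg, hC.eB_of_notMem]
      intro hcon
      apply hg
      have h1 := hJ v hb _ (hJ v hb _ hcon)
      rwa [hc.g_g_g] at h1
  · rw [F₀_good h b hb (not_v0_of_not_spl h b hv)]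
    exact unit_twist hc (b.X h).pres v g

variable [IsTotallyComplex E] [MeasurableSpace (LocFam.D (b.X h).UE)]
  [DiscreteMeasurableSpace (LocFam.D (b.X h).UE)] [Countable (LocFam.D (b.X h).UE)]
  {wE : HF E × LocFam.D (b.X h).UE → ℝ≥0} [IsFiniteMeasure (wtM (muY E (LocFam.D (b.X h).UE)) wE)]

/-- **The structure at the auxiliary place** for the concrete context. -/
theorem iwOps_bad (hwE : IsWt PGL(2, E) (muY E (LocFam.D (b.X h).UE)) wE)
    (hJ : ∀ v ∈ b.bad, ∀ j ∈ J v, (autoE σ).g v j ∈ J v)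
    (hψ : ∀ v ∈ b.bad, ∀ j ∈ J v, ψ v ((autoE σ).g v j) = ψ v j)
    (d : V0Data (b.X h)) (hc : (autoE σ).IsCubic) :
    IwOps (fun j => opD hwE (gZ d j).toDKer) (fun j => opD hwE (ge d j).toDKer)
      (fun j => opD hwE (go d j).toDKer) (opD hwE (PE (d.u 0)).toDKer)
      ((twD (Auto.twist (A := (b.X h).A) hc (b.X h).pres)).op hwE) ((d.B.card : ℝ) : ℂ) :=
  iwOps_data d hwE hc (F₀_idem h b hB) (F₀_twist h b hB hJ hψ)

end Fermat.Agent.LT.V0
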