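import Fermat.Agent.LT.V0.Tens
import Fermat.Agent.LT.Glob.Hk

/-!
# The action of the Iwahori–Hecke algebra on functions; `Z` on spherical functions
-/

set_option autoImplicit false

universe u

namespace Fermat.Agent.LT.V0

open Matrix Fermat.Agent.LT.Loc Fermat.Agent.LT.Glob
open scoped MatrixGroups

section Act

variable {H : Type u} [Group H] {K : Subgroup H} {E : Type*} [AddCommGroup E] [Module ℂ E]

/-- as an element of the algebra of invariant kernels -/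
def HAlg.hk (F : HAlg K) : Hk K := Hk.ofBi F.bi F.fin

theorem HAlg.hk_toBiInv (F : HAlg K) : F.hk.toBiInv = F.bi := rfl

theorem HAlg.hk_mul (F G : HAlg K) : (F * G).hk = F.hk * G.hk := (Hk.ofBi_mul _ _ _ _).symm

theorem HAlg.hk_one : (1 : HAlg K).hk = 1 := Hk.ofBi_unit

theorem HAlg.hk_add (F G : HAlg K) : (F + G).hk = F.hk + G.hk :=
  Hk.ext_f fun g => by rw [Hk.add_f]; rfl

theorem HAlg.hk_smul (c : ℂ) (F : HAlg K) : (c • F).hk = c • F.hk :=
  Hk.ext_f fun g => by rw [Hk.csmul_f]; rfl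

/-- the action on functions -/
noncomputable def act (F : HAlg K) (φ : H ⧸ K → E) : H ⧸ K → E := kact F.hk.ker φ

theorem act_mul (F G : HAlg K) (φ : H ⧸ K → E) : act (F * G) φ = act F (act G φ) := by
  rw [act, HAlg.hk_mul, Hk.ker_mul, kact_kcomp F.hk.rowF G.hk.rowF]
  rfl

theorem act_one (φ : H ⧸ K → E) : act (1 : HAlg K) φ = φ := by
  rw [act, HAlg.hk_one, Hk.ker_one, kact_one]

theorem act_smul (c : ℂ) (F : HAlg K) (φ : H ⧸ K → E) : act (c • F) φ = c • act F φ := by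
  funext x
  rw [act, HAlg.hk_smul, Hk.ker_csmul, Pi.smul_apply, act,
    kact_eq_sum x φ (s := (F.hk.rowF x).toFinset), kact_eq F.hk.rowF, Finset.smul_sum]
  · exact Finset.sum_congr rfl fun y _ => by
      rw [Pi.smul_apply, Pi.smul_apply, smul_eq_mul, mul_smul]
  · intro y hy
    rw [Set.Finite.mem_toFinset]
    intro h0
    apply hy
    rw [Pi.smul_apply, Pi.smul_apply, h0, smul_zero]

variable {ι : Type*} [Fintype ι] {C : Subgroup H} {r : ι → H}

theorem act_indC (hr : IsReps C K r) (φ : H ⧸ K → E) (g : H) :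
    act (indC hr) φ (g : H ⧸ K) = ∑ i, φ ((g * r i : H) : H ⧸ K) := by
  classical
  have hinj : Function.Injective fun i => ((g * r i : H) : H ⧸ K) := by
    intro i j hij
    apply hr.inj
    have := QuotientGroup.eq.1 hij
    rwa [_root_.mul_inv_rev, mul_assoc, inv_mul_cancel_left] at this
  rw [act, kact_eq_sum (g : H ⧸ K) φ (s := Finset.univ.image fun i => ((g * r i : H) : H ⧸ K)),
    Finset.sum_image fun i _ j _ h => hinj h]
  · refine Finset.sum_congr rfl fun i _ => ?_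
    rw [Hk.ker_mk]
    have : (indC hr).hk.f (g⁻¹ * (g * r i)) = 1 := by
      rw [inv_mul_cancel_left]
      exact if_pos (hr.mem i)
    rw [this, one_smul]
  · intro y hy
    induction y using QuotientGroup.induction_on with
    | H y =>
    rw [Hk.ker_mk] at hy
    have h1 : g⁻¹ * y ∈ C := by
      by_contra h
      exact hy (if_neg h)
    obtain ⟨i, hi⟩ := hr.cover _ h1
    rw [Finset.mem_image]
    refine ⟨i, Finset.mem_univ _, QuotientGroup.eq.2 ?_⟩
    rwa [_root_.mul_inv_rev, mul_assoc]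

theorem act_indW {w : H} (hw : IsNorm K w) (φ : H ⧸ K → E) (g : H) :
    act (indW hw) φ (g : H ⧸ K) = φ ((g * w : H) : H ⧸ K) := by
  classical
  rw [act, kact_eq_sum (g : H ⧸ K) φ (s := {((g * w : H) : H ⧸ K)}), Finset.sum_singleton]
  · rw [Hk.ker_mk]
    have : (indW hw).hk.f (g⁻¹ * (g * w)) = 1 := by
      rw [inv_mul_cancel_left]
      exact if_pos (by rw [inv_mul_cancel]; exact K.one_mem)
    rw [this, one_smul]
  · intro y hy
    induction y using QuotientGroup.induction_on with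
    | H y =>
    rw [Hk.ker_mk] at hy
    have h1 : w⁻¹ * (g⁻¹ * y) ∈ K := by
      by_contra h
      exact hy (if_neg h)
    rw [Finset.mem_singleton]
    refine (QuotientGroup.eq.2 ?_).symm
    rwa [_root_.mul_inv_rev, mul_assoc]

/-- the projection to a bigger subgroup -/
def qp (h : K ≤ C) : H ⧸ K → H ⧸ C := Quotient.map' id (by
  intro a b hab
  rw [QuotientGroup.leftRel_apply] at hab ⊢
  exact h hab)

omit [Fintype ι] in
theorem qp_mk (h : K ≤ C) (g : H) : qp h (g : H ⧸ K) = (g : H ⧸ C) := rfl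

theorem act_indC_of_inv (hr : IsReps C K r) (ψ : H ⧸ C → E) :
    act (indC hr) (fun x => ψ (qp hr.le x)) = (Fintype.card ι : ℂ) • fun x => ψ (qp hr.le x) := by
  funext x
  induction x using QuotientGroup.induction_on with
  | H g =>
  rw [act_indC, Pi.smul_apply]
  have h1 : ∀ i, ψ (qp hr.le ((g * r i : H) : H ⧸ K)) = ψ (qp hr.le (g : H ⧸ K)) := by
    intro i
    rw [qp_mk, qp_mk]
    congr 1
    refine QuotientGroup.eq.2 ?_
    have : (g * r i)⁻¹ * g = (r i)⁻¹ := by group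
    rw [this]
    exact C.inv_mem (hr.mem i)
  simp only [h1]
  rw [Finset.sum_const, Finset.card_univ, ← Nat.cast_smul_eq_nsmul ℂ]

end Act

section Sph

variable {R : Type u} [CommRing R] {O : Subring R} {ϖ : Rˣ} {B : Finset R}
  {K : Subgroup PGL(2, R)} {E : Type*} [AddCommGroup E] [Module ℂ E]

theorem wR_mul_tri (ϖ : Rˣ) : (wR : GL (Fin 2) R) * tri ϖ 1 0 = wI ϖ := by
  apply Units.ext
  rw [Units.val_mul, wR_coe, tri_coe, wI_coe]
  ext i j
  fin_cases i <;> fin_cases j <;> simp [Matrix.mul_apply, Fin.sum_univ_two]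

theorem wI_mem_HS (ϖ : Rˣ) : ProjGenLinGroup.mk (wI ϖ) ∈ HS O ϖ :=
  ⟨ProjGenLinGroup.mk wR, mk_mem_PO (wR_mem O), 1, one_mem _, by
    rw [mul_one, ← map_mul, wR_mul_tri]⟩

theorem scal_mem {κ : GL (Fin 2) R} (hκ : κ ∈ GLO O) {z : R} (h0 : z * κ 0 0 ∈ O)
    (h1 : z * κ 1 0 ∈ O) : z ∈ O := by
  have hd := (mem_GLO_iff.1 hκ).2
  have hdet : ((GeneralLinearGroup.det κ)⁻¹ : Rˣ).val * (κ 0 0 * κ 1 1 - κ 0 1 * κ 1 0) = 1 := by
    rw [← Matrix.det_fin_two]
    exact (GeneralLinearGroup.det κ).inv_mul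
  have e : z = ((GeneralLinearGroup.det κ)⁻¹ : Rˣ).val *
      ((z * κ 0 0) * κ 1 1 - κ 0 1 * (z * κ 1 0)) := by
    linear_combination (-z) * hdet
  rw [e]
  exact O.mul_mem hd (O.sub_mem (O.mul_mem h0 (hκ.1 _ _)) (O.mul_mem (hκ.1 _ _) h1))

theorem wI_conj_apply' (ϖ : Rˣ) (g : GL (Fin 2) R) :
    (((wI ϖ)⁻¹ * g * wI ϖ : GL (Fin 2) R) : Matrix (Fin 2) (Fin 2) R) =
      !![g 1 1, ((ϖ⁻¹ : Rˣ) : R) * g 1 0; (ϖ : R) * g 0 1, g 0 0] := by
  rw [Units.val_mul, Units.val_mul, wI_coe, wI_inv_coe]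
  generalize (g : Matrix (Fin 2) (Fin 2) R) = A
  ext i j
  fin_cases i <;> fin_cases j <;>
    simp [Matrix.mul_apply, Fin.sum_univ_two, Matrix.vecMul, dotProduct, mul_comm]

/-- `w⁻¹ κ w ∈ PGL₂(O)` only for `κ` in the Iwahori subgroup -/
theorem mem_GIw_of_conj (hϖ : (ϖ : R) ∈ O) {κ : GL (Fin 2) R} (hκ : κ ∈ GLO O)
    (h : ProjGenLinGroup.mk ((wI ϖ)⁻¹ * κ * wI ϖ) ∈ PO O) : κ ∈ GIw O ϖ := by
  obtain ⟨z, hz⟩ := mk_mem_PO_iff.1 h
  have hinv : (sc z * ((wI ϖ)⁻¹ * κ * wI ϖ))⁻¹ = sc z⁻¹ * ((wI ϖ)⁻¹ * κ⁻¹ * wI ϖ) := by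
    rw [_root_.mul_inv_rev, ← map_inv, sc_comm]
    congr 1
    group
  have e1 : ∀ i j, (sc z * ((wI ϖ)⁻¹ * κ * wI ϖ) : GL (Fin 2) R) i j ∈ O := hz.1
  have e2 : ∀ i j, (sc z⁻¹ * ((wI ϖ)⁻¹ * κ⁻¹ * wI ϖ) : GL (Fin 2) R) i j ∈ O := fun i j => by
    rw [← hinv]; exact hz.2 i j
  have key : ∀ (z : Rˣ) (κ : GL (Fin 2) R), κ ∈ GLO O →
      (∀ i j, (sc z * ((wI ϖ)⁻¹ * κ * wI ϖ) : GL (Fin 2) R) i j ∈ O) → (z : R) ∈ O := by
    intro z κ hκ h1
    refine scal_mem hκ ?_ ?_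
    · have := h1 1 1
      rw [sc_mul_apply, wI_conj_apply'] at this
      exact this
    · have := h1 0 1
      rw [sc_mul_apply, wI_conj_apply'] at this
      have h2 : (z : R) * κ 1 0 = (ϖ : R) * ((z : R) * (((ϖ⁻¹ : Rˣ) : R) * κ 1 0)) := by
        rw [mul_left_comm (ϖ : R), Units.mul_inv_cancel_left]
      rw [h2]
      exact O.mul_mem hϖ this
  have hz2 := key z⁻¹ κ⁻¹ (inv_mem hκ) e2
  refine ⟨hκ, ?_⟩
  have := e1 0 1
  rw [sc_mul_apply, wI_conj_apply'] at this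
  have h3 : ((ϖ⁻¹ : Rˣ) : R) * κ 1 0 =
      ((z⁻¹ : Rˣ) : R) * ((z : R) * (((ϖ⁻¹ : Rˣ) : R) * κ 1 0)) := by
    rw [Units.inv_mul_cancel_left]
  rw [h3]
  exact O.mul_mem hz2 this

/-- the neighbours of a vertex, parametrised by the Iwahori cosets -/
theorem sum_ir_eq (h : Unif O ϖ B) (g : PGL(2, R)) (ψ : PGL(2, R) ⧸ PO O → E) :
    ∑ o : Option B, ψ ((g * ProjGenLinGroup.mk (ir B o) * ProjGenLinGroup.mk (wI ϖ) : PGL(2, R)) :
      PGL(2, R) ⧸ PO O) = ∑ o : Option B, ψ (nb O ϖ B g o) := by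
  have hmem : ∀ o, ir B o ∈ GLO O := fun o => by
    cases o with
    | none => exact wR_mem O
    | some b => exact lo_mem (h.sub _ b.2)
  have h1 : ∀ o : Option B, ∃ o', nb O ϖ B g o' =
      ((g * ProjGenLinGroup.mk (ir B o) * ProjGenLinGroup.mk (wI ϖ) : PGL(2, R)) :
      PGL(2, R) ⧸ PO O) := by
    intro o
    have h2 : ((g * ProjGenLinGroup.mk (ir B o) * ProjGenLinGroup.mk (wI ϖ) : PGL(2, R)) :
        PGL(2, R) ⧸ PO O) ∈ Set.range (nb O ϖ B g) := by
      rw [h.range_nb]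
      refine ⟨_, rfl, ?_⟩
      rw [mul_assoc, inv_mul_cancel_left]
      exact HS.mul_left (mk_mem_PO (hmem o)) (wI_mem_HS ϖ)
    exact h2
  choose f hf using h1
  have hinj : Function.Injective f := by
    intro o o' ho
    have h3 : ((g * ProjGenLinGroup.mk (ir B o) * ProjGenLinGroup.mk (wI ϖ) : PGL(2, R)) :
        PGL(2, R) ⧸ PO O) = ((g * ProjGenLinGroup.mk (ir B o') * ProjGenLinGroup.mk (wI ϖ) :
        PGL(2, R)) : PGL(2, R) ⧸ PO O) := by
      rw [← hf o, ← hf o', ho]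
    have h4 := QuotientGroup.eq.1 h3
    have h5 : (g * ProjGenLinGroup.mk (ir B o) * ProjGenLinGroup.mk (wI ϖ))⁻¹ *
        (g * ProjGenLinGroup.mk (ir B o') * ProjGenLinGroup.mk (wI ϖ)) =
        ProjGenLinGroup.mk ((wI ϖ)⁻¹ * ((ir B o)⁻¹ * ir B o') * wI ϖ) := by
      rw [map_mul, map_mul, map_mul, map_inv, map_inv]
      group
    rw [h5] at h4
    have h6 := mem_GIw_of_conj h.mem (mul_mem (inv_mem (hmem o)) (hmem o')) h4
    apply (isReps h).inj
    rw [← map_inv, ← map_mul]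
    exact ⟨_, h6, rfl⟩
  have hbij : Function.Bijective f := Finite.injective_iff_bijective.mp hinj
  rw [← hbij.sum_comp fun o => ψ (nb O ϖ B g o)]
  exact Finset.sum_congr rfl fun o _ => by rw [hf]

theorem act_kE_of_inv (h : IsIw O ϖ B K) (ψ : PGL(2, R) ⧸ PO O → E) :
    act (kE h) (fun x => ψ (qp h.isReps.le x)) = fun x => ψ (qp h.isReps.le x) := by
  rw [kE, act_smul, act_indC_of_inv, smul_smul, Fintype.card_option, Fintype.card_coe,
    Nat.cast_add, Nat.cast_one, inv_mul_cancel₀ (card_add_one_ne_zero B), one_smul]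

/-- **`Z` acts on spherical functions as the Hecke operator.** -/
theorem act_kZ_of_inv (h : IsIw O ϖ B K) (ψ : PGL(2, R) ⧸ PO O → E) (g : PGL(2, R)) :
    act (kZ h) (fun x => ψ (qp h.isReps.le x)) (g : PGL(2, R) ⧸ K) =
      ∑ o : Option B, ψ (nb O ϖ B g o) := by
  set φ : PGL(2, R) ⧸ K → E := fun x => ψ (qp h.isReps.le x) with hφ
  have h1 : act (kE h) φ = φ := act_kE_of_inv h ψ
  have h2 : kZ h * kE h = ((B.card : ℂ) + 1) • (kE h * kW h * kE h) := by
    rw [kZ_eq h, smul_mul_assoc]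
    congr 1
    have h3 : (1 - kE h) * kE h = 0 := by rw [sub_mul, one_mul, kE_mul_self, sub_self]
    rw [sub_mul, mul_assoc (kE h * kW h), kE_mul_self, mul_assoc _ (1 - kE h), h3, mul_zero,
      sub_zero]
  have h4 : act (kZ h) φ = ((B.card : ℂ) + 1) • act (kE h) (act (kW h) φ) := by
    conv_lhs => rw [← h1]
    rw [← act_mul, h2, act_smul, act_mul, act_mul, h1]
  rw [h4, kE, act_smul, smul_smul, mul_inv_cancel₀ (card_add_one_ne_zero B), one_smul, act_indC,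
    ← sum_ir_eq h.unif g ψ]
  refine Finset.sum_congr rfl fun o _ => ?_
  rw [kW, act_indW]
  rfl

end Sph

end Fermat.Agent.LT.V0
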