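import Fermat.Agent.LT.V0.Act
import Fermat.Agent.LT.Glob.KillSplit

/-!
# The action of the three embedded Iwahori–Hecke algebras at a split place
-/

set_option autoImplicit false

universe u

namespace Fermat.Agent.LT.V0

open Matrix Fermat.Agent.LT.Loc Fermat.Agent.LT.Glob
open scoped MatrixGroups

section Equiv

variable {H : Type u} [Group H] {K C : Subgroup H} {E : Type*} [AddCommGroup E] [Module ℂ E]

/-- the action commutes with left translations -/
theorem act_trans (F : HAlg K) (φ : H ⧸ K → E) (c : H) (x : H ⧸ K) :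
    act F (fun y => φ (c • y)) x = act F φ (c • x) := by
  have h := finsum_comp_equiv (MulAction.toPerm c : Equiv.Perm (H ⧸ K))
    (f := fun y => F.hk.ker (c • x) y • φ y)
  rw [act, act, kact, kact, ← h]
  refine finsum_congr fun y => ?_
  change F.hk.ker x y • φ (c • y) = F.hk.ker (c • x) (c • y) • φ (c • y)
  rw [Hk.ker_smul]

theorem act_congr_left {F : HAlg K} (φ : H ⧸ K → E) {g g' : H}
    (h : ∀ y, F.bi.f (g⁻¹ * y) = F.bi.f (g'⁻¹ * y)) :
    act F φ (g : H ⧸ K) = act F φ (g' : H ⧸ K) := by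
  rw [act, kact, kact]
  refine finsum_congr fun y => ?_
  induction y using QuotientGroup.induction_on with
  | H y =>
  rw [Hk.ker_mk, Hk.ker_mk]
  change F.bi.f (g⁻¹ * y) • _ = F.bi.f (g'⁻¹ * y) • _
  rw [h]

theorem act_indC_mul {ι : Type*} [Fintype ι] {r : ι → H} (hr : IsReps C K r) (φ : H ⧸ K → E)
    (g : H) {c : H} (hc : c ∈ C) :
    act (indC hr) φ ((g * c : H) : H ⧸ K) = act (indC hr) φ (g : H ⧸ K) := by
  classical
  refine act_congr_left φ fun y => ?_
  rw [indC_f, indC_f]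
  have e : (g * c)⁻¹ * y = c⁻¹ * (g⁻¹ * y) := by group
  rw [e, C.mul_mem_cancel_left (C.inv_mem hc)]

end Equiv

section Grp

variable {G H : Type u} [Group G] [Group H] {σ : G →* G} {ι : H →* G} {π : G →* H}
  {K : Subgroup G} {K' : Subgroup H}

/-- the three projections -/
def pr3 (σ : G →* G) (π : G →* H) : Fin 3 → (G →* H)
  | 0 => π
  | 1 => π.comp σ
  | 2 => (π.comp σ).comp σ

theorem mem_iff_pr3 (hK : IsProd3 σ π K K') (g : G) : g ∈ K ↔ ∀ l, pr3 σ π l g ∈ K' := by
  rw [hK, forall_fin3]; rfl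

theorem pr3_ext (S : Split3 σ ι π) {g g' : G} (h : ∀ l, pr3 σ π l g = pr3 σ π l g') : g = g' :=
  S.inj _ _ (h 0) (h 1) (h 2)

theorem exists_pr3 (S : Split3 σ ι π) (a : Fin 3 → H) : ∃ g, ∀ l, pr3 σ π l g = a l := by
  obtain ⟨g, h0, h1, h2⟩ := S.surj (a 0) (a 1) (a 2)
  exact ⟨g, forall_fin3.2 ⟨h0, h1, h2⟩⟩

/-- the embedding in the `j`-th coordinate -/
noncomputable def em (S : Split3 σ ι π) (j : Fin 3) : H →* G where
  toFun h := (exists_pr3 S (Pi.mulSingle j h)).choose
  map_one' := by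
    apply pr3_ext S
    intro l
    rw [(exists_pr3 S _).choose_spec, Pi.mulSingle_one, map_one]; rfl
  map_mul' a b := by
    apply pr3_ext S
    intro l
    rw [map_mul, (exists_pr3 S _).choose_spec, (exists_pr3 S _).choose_spec,
      (exists_pr3 S _).choose_spec, Pi.mulSingle_mul]; rfl

theorem pr_em (S : Split3 σ ι π) (j l : Fin 3) (h : H) :
    pr3 σ π l (em S j h) = (Pi.mulSingle j h : Fin 3 → H) l := (exists_pr3 S _).choose_spec l

theorem pr_em_same (S : Split3 σ ι π) (j : Fin 3) (h : H) : pr3 σ π j (em S j h) = h := by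
  rw [pr_em, Pi.mulSingle_eq_same]

theorem pr_em_ne (S : Split3 σ ι π) {j l : Fin 3} (hl : l ≠ j) (h : H) :
    pr3 σ π l (em S j h) = 1 := by
  rw [pr_em, Pi.mulSingle_eq_of_ne hl]

theorem em_mem (S : Split3 σ ι π) (hK : IsProd3 σ π K K') (j : Fin 3) {h : H} (hh : h ∈ K') :
    em S j h ∈ K := by
  rw [mem_iff_pr3 hK]
  intro l
  by_cases hl : l = j
  · subst hl; rwa [pr_em_same]
  · rw [pr_em_ne S hl]; exact K'.one_mem

theorem em_decomp (S : Split3 σ ι π) (g : G) :
    em S 0 (pr3 σ π 0 g) * em S 1 (pr3 σ π 1 g) * em S 2 (pr3 σ π 2 g) = g := by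
  apply pr3_ext S
  intro l
  rw [map_mul, map_mul, pr_em, pr_em, pr_em]
  fin_cases l
  · simp
  · simp
  · simp

theorem jH_f (S : Split3 σ ι π) (hK : IsProd3 σ π K K') (j : Fin 3) (F : HAlg K') (g : G)
    [Decidable (∀ l, l ≠ j → pr3 σ π l g ∈ K')] : (jH S hK j F).bi.f g =
    if (∀ l, l ≠ j → pr3 σ π l g ∈ K') then F.bi.f (pr3 σ π j g) else 0 := by
  classical
  have h1 : ∀ x : H, (1 : HAlg K').bi.f x = if x ∈ K' then 1 else 0 := fun x => by
    rw [HAlg.one_bi, BiInv.unit_f]
  fin_cases j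
  · change (tH S hK F 1 1).bi.f g = _
    rw [tH_f, h1, h1]
    by_cases hc : ∀ l, l ≠ (0 : Fin 3) → pr3 σ π l g ∈ K'
    · have h2 : π (σ g) ∈ K' := hc 1 (by decide)
      have h3 : π (σ (σ g)) ∈ K' := hc 2 (by decide)
      rw [if_pos h2, if_pos h3, mul_one, mul_one]
      exact (if_pos hc).symm
    · refine Eq.trans ?_ (if_neg hc).symm
      by_cases h2 : π (σ g) ∈ K'
      · by_cases h3 : π (σ (σ g)) ∈ K'
        · exact absurd (forall_fin3.2 ⟨fun h => absurd rfl h, fun _ => h2, fun _ => h3⟩) hc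
        · rw [if_neg h3, mul_zero]
      · rw [if_neg h2, mul_zero, zero_mul]
  · change (tH S hK 1 F 1).bi.f g = _
    rw [tH_f, h1, h1]
    by_cases hc : ∀ l, l ≠ (1 : Fin 3) → pr3 σ π l g ∈ K'
    · have h2 : π g ∈ K' := hc 0 (by decide)
      have h3 : π (σ (σ g)) ∈ K' := hc 2 (by decide)
      rw [if_pos h2, if_pos h3, mul_one, one_mul]
      exact (if_pos hc).symm
    · refine Eq.trans ?_ (if_neg hc).symm
      by_cases h2 : π g ∈ K'
      · by_cases h3 : π (σ (σ g)) ∈ K'
        · exact absurd (forall_fin3.2 ⟨fun _ => h2, fun h => absurd rfl h, fun _ => h3⟩) hc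
        · rw [if_neg h3, mul_zero]
      · rw [if_neg h2, zero_mul, zero_mul]
  · change (tH S hK 1 1 F).bi.f g = _
    rw [tH_f, h1, h1]
    by_cases hc : ∀ l, l ≠ (2 : Fin 3) → pr3 σ π l g ∈ K'
    · have h2 : π g ∈ K' := hc 0 (by decide)
      have h3 : π (σ g) ∈ K' := hc 1 (by decide)
      rw [if_pos h2, if_pos h3, one_mul, one_mul]
      exact (if_pos hc).symm
    · refine Eq.trans ?_ (if_neg hc).symm
      by_cases h2 : π g ∈ K'
      · by_cases h3 : π (σ g) ∈ K'
        · exact absurd (forall_fin3.2 ⟨fun _ => h2, fun _ => h3, fun h => absurd rfl h⟩) hc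
        · rw [if_neg h3, mul_zero, zero_mul]
      · rw [if_neg h2, zero_mul, zero_mul]

/-- the embedding of the `j`-th factor in `G ⧸ K`, at `g` -/
noncomputable def emq (S : Split3 σ ι π) (hK : IsProd3 σ π K K') (j : Fin 3) (g : G) :
    H ⧸ K' → G ⧸ K := fun x => Quotient.liftOn' x (fun h => ((g * em S j h : G) : G ⧸ K)) (by
  intro a b hab
  rw [QuotientGroup.leftRel_apply] at hab
  refine QuotientGroup.eq.2 ?_
  rw [_root_.mul_inv_rev, mul_assoc, inv_mul_cancel_left, ← map_inv, ← map_mul]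
  exact em_mem S hK j hab)

variable (S : Split3 σ ι π) (hK : IsProd3 σ π K K')

theorem emq_mk (j : Fin 3) (g : G) (h : H) :
    emq S hK j g (h : H ⧸ K') = ((g * em S j h : G) : G ⧸ K) := rfl

theorem emq_mul (j : Fin 3) (g : G) (c : H) (x : H ⧸ K') :
    emq S hK j (g * em S j c) x = emq S hK j g (c • x) := by
  induction x using QuotientGroup.induction_on with
  | H x =>
  change ((g * em S j c * em S j x : G) : G ⧸ K) = ((g * em S j (c * x) : G) : G ⧸ K)
  rw [map_mul, mul_assoc]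

theorem emq_injective (j : Fin 3) (g : G) : Function.Injective (emq S hK j g) := by
  intro a b hab
  induction a using QuotientGroup.induction_on with
  | H a =>
  induction b using QuotientGroup.induction_on with
  | H b =>
  rw [emq_mk, emq_mk] at hab
  have h1 := QuotientGroup.eq.1 hab
  rw [_root_.mul_inv_rev, mul_assoc, inv_mul_cancel_left, ← map_inv, ← map_mul,
    mem_iff_pr3 hK] at h1
  have h2 := h1 j
  rw [pr_em_same] at h2
  exact QuotientGroup.eq.2 h2

variable {E : Type*} [AddCommGroup E] [Module ℂ E]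

/-- **the action of an element of the `j`-th Hecke algebra** -/
theorem act_jH (j : Fin 3) (F : HAlg K') (φ : G ⧸ K → E) (g : G) :
    act (jH S hK j F) φ (g : G ⧸ K) =
      act F (fun x => φ (emq S hK j g x)) ((1 : H) : H ⧸ K') := by
  classical
  set s := (F.hk.rowF ((1 : H) : H ⧸ K')).toFinset with hs
  have h0 : ∀ y, (jH S hK j F).hk.ker (g : G ⧸ K) y ≠ 0 → y ∈ s.image (emq S hK j g) := by
    intro y hy
    induction y using QuotientGroup.induction_on with
    | H y =>
    rw [Hk.ker_mk] at hy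
    have h1 : (jH S hK j F).bi.f (g⁻¹ * y) ≠ 0 := hy
    rw [jH_f] at h1
    have h2 : ∀ l, l ≠ j → pr3 σ π l (g⁻¹ * y) ∈ K' := by
      by_contra hc
      exact h1 (if_neg hc)
    rw [if_pos h2] at h1
    rw [Finset.mem_image]
    refine ⟨((pr3 σ π j (g⁻¹ * y) : H) : H ⧸ K'), ?_, ?_⟩
    · rw [hs, Set.Finite.mem_toFinset]
      change F.hk.ker ((1 : H) : H ⧸ K') ((pr3 σ π j (g⁻¹ * y) : H) : H ⧸ K') ≠ 0
      rw [Hk.ker_mk, inv_one, one_mul]
      exact h1
    · rw [emq_mk]
      refine QuotientGroup.eq.2 ?_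
      rw [_root_.mul_inv_rev, mul_assoc, mem_iff_pr3 hK]
      intro l
      by_cases hl : l = j
      · subst hl
        rw [map_mul, map_inv, pr_em_same, inv_mul_cancel]
        exact K'.one_mem
      · rw [map_mul, map_inv, pr_em_ne S hl, inv_one, one_mul]
        exact h2 l hl
  rw [act, kact_eq_sum (g : G ⧸ K) φ h0, Finset.sum_image fun a _ b _ h => emq_injective S hK j g h,
    act, kact_eq F.hk.rowF]
  refine Finset.sum_congr rfl fun x _ => ?_
  congr 1
  induction x using QuotientGroup.induction_on with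
  | H x =>
  rw [emq_mk, Hk.ker_mk, Hk.ker_mk, inv_mul_cancel_left, inv_one, one_mul]
  change (jH S hK j F).bi.f (em S j x) = F.bi.f x
  rw [jH_f, if_pos, pr_em_same]
  intro l hl
  rw [pr_em_ne S hl]
  exact K'.one_mem

/-! ### invariance under the bigger group -/

variable {C' : Subgroup H} {κ : Type*} [Fintype κ] {r : κ → H}

/-- invariance under `1 × C' × 1` -/
theorem act_indC_jH_iff [Nonempty κ] (hr : IsReps C' K' r) (j : Fin 3) (φ : G ⧸ K → E) :
    act (jH S hK j (((Fintype.card κ : ℂ)⁻¹) • indC hr)) φ = φ ↔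
      ∀ (g : G), ∀ c ∈ C', φ ((g * em S j c : G) : G ⧸ K) = φ (g : G ⧸ K) := by
  have hne : (Fintype.card κ : ℂ) ≠ 0 := by exact_mod_cast Fintype.card_ne_zero
  constructor
  · intro h g c hc
    rw [← h, act_jH, act_jH]
    have e : (fun x => φ (emq S hK j (g * em S j c) x)) =
        fun x => (fun y => φ (emq S hK j g y)) (c • x) := by
      funext x
      rw [emq_mul]
    rw [e, act_trans _ (fun y => φ (emq S hK j g y)) c, act_smul]
    refine congrArg (fun z : E => (Fintype.card κ : ℂ)⁻¹ • z) ?_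
    have e2 : c • ((1 : H) : H ⧸ K') = ((1 * c : H) : H ⧸ K') := by
      change ((c * 1 : H) : H ⧸ K') = _
      rw [mul_one, one_mul]
    rw [e2, act_indC_mul hr _ _ hc]
  · intro h
    funext y
    induction y using QuotientGroup.induction_on with
    | H g =>
    rw [act_jH, act_smul, Pi.smul_apply, act_indC]
    have e : ∀ i, φ (emq S hK j g ((1 * r i : H) : H ⧸ K')) = φ (g : G ⧸ K) := by
      intro i
      rw [one_mul, emq_mk]
      exact h g _ (hr.mem i)
    simp only [e]
    rw [Finset.sum_const, Finset.card_univ, ← Nat.cast_smul_eq_nsmul ℂ, smul_smul,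
      inv_mul_cancel₀ hne, one_smul]

omit [AddCommGroup E] [Module ℂ E] in
/-- invariance under `C' × C' × C'` -/
theorem inv3_iff {C : Subgroup G} (hC : IsProd3 σ π C C') (φ : G ⧸ K → E) :
    (∀ (j : Fin 3) (g : G), ∀ c ∈ C', φ ((g * em S j c : G) : G ⧸ K) = φ (g : G ⧸ K)) ↔
      ∀ (g : G), ∀ c ∈ C, φ ((g * c : G) : G ⧸ K) = φ (g : G ⧸ K) := by
  constructor
  · intro h g c hc
    rw [mem_iff_pr3 hC] at hc
    rw [← em_decomp S c, ← mul_assoc, ← mul_assoc, h 2 _ _ (hc 2), h 1 _ _ (hc 1),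
      h 0 _ _ (hc 0)]
  · intro h j g c hc
    exact h g _ (em_mem S hC j hc)

end Grp

end Fermat.Agent.LT.V0
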