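import Fermat.Agent.LT.Loc.ConvAlg

/-!
# The Hecke algebra of a pair `(H, K)` as a ring
-/

set_option autoImplicit false

universe u

namespace Fermat.Agent.LT.V0

open Fermat.Agent.LT.Loc

section

variable {H : Type u} [Group H] (K : Subgroup H)

/-- bi-invariant functions with finite support modulo `K`, as a subspace -/
def hsub : Submodule ℂ (H → ℂ) where
  carrier := {f | (∀ k ∈ K, ∀ k' ∈ K, ∀ y, f (k * y * k') = f y) ∧
    {y : H ⧸ K | ∃ a : H, (a : H ⧸ K) = y ∧ f a ≠ 0}.Finite}
  zero_mem' := ⟨fun _ _ _ _ _ => rfl, by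
    convert Set.finite_empty
    ext y
    constructor
    · rintro ⟨a, -, ha⟩
      exact ha rfl
    · exact fun h => h.elim⟩
  add_mem' := by
    rintro f g ⟨hf, hf'⟩ ⟨hg, hg'⟩
    refine ⟨fun k hk k' hk' y => ?_, (hf'.union hg').subset ?_⟩
    · rw [Pi.add_apply, Pi.add_apply, hf k hk k' hk', hg k hk k' hk']
    · rintro _ ⟨a, rfl, ha⟩
      by_cases h : f a = 0
      · right
        refine ⟨a, rfl, fun h' => ha ?_⟩
        rw [Pi.add_apply, h, h', add_zero]
      · exact Or.inl ⟨a, rfl, h⟩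
  smul_mem' := by
    rintro c f ⟨hf, hf'⟩
    refine ⟨fun k hk k' hk' y => ?_, hf'.subset ?_⟩
    · rw [Pi.smul_apply, Pi.smul_apply, hf k hk k' hk']
    · rintro _ ⟨a, rfl, ha⟩
      exact ⟨a, rfl, fun h' => ha (by rw [Pi.smul_apply, h', smul_zero])⟩

/-- **The Hecke algebra.** -/
def HAlg : Type u := hsub K

instance : AddCommGroup (HAlg K) := inferInstanceAs (AddCommGroup (hsub K))
instance : Module ℂ (HAlg K) := inferInstanceAs (Module ℂ (hsub K))

variable {K}

namespace HAlg

/-- the underlying bi-invariant function -/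
def bi (F : HAlg K) : BiInv K := ⟨F.1, F.2.1⟩

theorem fin (F : HAlg K) : F.bi.Fin := F.2.2

/-- the constructor -/
def mk (F : BiInv K) (h : F.Fin) : HAlg K := ⟨F.f, F.inv, h⟩

theorem bi_mk (F : BiInv K) (h : F.Fin) : (mk F h).bi = F := rfl

theorem bi_f (F : HAlg K) (x : H) : F.bi.f x = F.1 x := rfl

@[ext] theorem ext {F G : HAlg K} (h : ∀ x, F.bi.f x = G.bi.f x) : F = G :=
  Subtype.ext (funext h)

theorem bi_injective {F G : HAlg K} (h : F.bi = G.bi) : F = G := ext fun x => by rw [h]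

theorem add_f (F G : HAlg K) (x : H) : (F + G).bi.f x = F.bi.f x + G.bi.f x := rfl

theorem smul_f (c : ℂ) (F : HAlg K) (x : H) : (c • F).bi.f x = c * F.bi.f x := rfl

theorem zero_f (x : H) : (0 : HAlg K).bi.f x = 0 := rfl

theorem neg_f (F : HAlg K) (x : H) : (-F).bi.f x = -F.bi.f x := rfl

theorem sub_f (F G : HAlg K) (x : H) : (F - G).bi.f x = F.bi.f x - G.bi.f x := rfl

noncomputable instance : Mul (HAlg K) := ⟨fun F G => mk (F.bi.conv G.bi) (F.fin.conv G.fin)⟩

noncomputable instance : One (HAlg K) := ⟨mk (BiInv.unit K) BiInv.unit_fin⟩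

theorem mul_bi (F G : HAlg K) : (F * G).bi = F.bi.conv G.bi := rfl

theorem one_bi : (1 : HAlg K).bi = BiInv.unit K := rfl

theorem mul_f (F G : HAlg K) (x : H) : (F * G).bi.f x = ∑ᶠ a : H ⧸ K, F.bi.convAux G.bi x a := rfl

theorem support_finite (F : HAlg K) (G : BiInv K) (x : H) :
    (Function.support (F.bi.convAux G x)).Finite :=
  F.fin.subset (F.bi.support_convAux G x)

noncomputable instance : Ring (HAlg K) :=
  { (inferInstance : AddCommGroup (HAlg K)) with
    mul := (· * ·)
    one := 1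
    left_distrib := fun F G G' => by
      refine ext fun x => ?_
      rw [add_f, mul_f, mul_f, mul_f, ← finsum_add_distrib (F.support_finite _ x)
        (F.support_finite _ x)]
      refine finsum_congr fun a => ?_
      induction a using QuotientGroup.induction_on with
      | H a => exact mul_add _ _ _
    right_distrib := fun F F' G => by
      refine ext fun x => ?_
      rw [add_f, mul_f, mul_f, mul_f, ← finsum_add_distrib (F.support_finite _ x)
        (F'.support_finite _ x)]
      refine finsum_congr fun a => ?_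
      induction a using QuotientGroup.induction_on with
      | H a => exact add_mul _ _ _
    zero_mul := fun G => by
      refine ext fun x => ?_
      rw [mul_f, zero_f]
      refine finsum_eq_zero_of_forall_eq_zero fun a => ?_
      induction a using QuotientGroup.induction_on with
      | H a => exact zero_mul _
    mul_zero := fun G => by
      refine ext fun x => ?_
      rw [mul_f, zero_f]
      refine finsum_eq_zero_of_forall_eq_zero fun a => ?_
      induction a using QuotientGroup.induction_on with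
      | H a => exact mul_zero _
    mul_assoc := fun F G G' => bi_injective (BiInv.conv_assoc F.fin G.fin G'.bi)
    one_mul := fun F => bi_injective (BiInv.unit_conv F.bi)
    mul_one := fun F => bi_injective (BiInv.conv_unit F.bi) }

noncomputable instance : Algebra ℂ (HAlg K) :=
  Algebra.ofModule (fun c F G => by
    refine ext fun x => ?_
    rw [smul_f, mul_f, mul_f, mul_finsum]
    refine finsum_congr fun a => ?_
    induction a using QuotientGroup.induction_on with
    | H a => exact mul_assoc _ _ _) (fun c F G => by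
    refine ext fun x => ?_
    rw [smul_f, mul_f, mul_f, mul_finsum]
    refine finsum_congr fun a => ?_
    induction a using QuotientGroup.induction_on with
    | H a => exact mul_left_comm _ _ _)

theorem mul_ne_zero_of {F G : HAlg K} {x : H} (h : (F * G).bi.f x ≠ 0) :
    ∃ a : H, F.bi.f a ≠ 0 ∧ G.bi.f (a⁻¹ * x) ≠ 0 := by
  by_contra hcon
  push Not at hcon
  apply h
  rw [mul_f]
  refine finsum_eq_zero_of_forall_eq_zero fun a => ?_
  induction a using QuotientGroup.induction_on with
  | H a =>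
  rw [BiInv.convAux_mk]
  by_cases ha : F.bi.f a = 0
  · rw [ha, zero_mul]
  · rw [hcon a ha, mul_zero]

end HAlg

/-! ### Elements attached to subgroups and to normalising elements -/

/-- representatives for `C / K` -/
structure IsReps {ι : Type*} (C K : Subgroup H) (r : ι → H) : Prop where
  le : K ≤ C
  mem : ∀ i, r i ∈ C
  cover : ∀ c ∈ C, ∃ i, (r i)⁻¹ * c ∈ K
  inj : ∀ i j, (r i)⁻¹ * r j ∈ K → i = j

section Reps

variable {ι : Type*} [Fintype ι] {C : Subgroup H} {r : ι → H} (hr : IsReps C K r)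

include hr

omit [Fintype ι] in
theorem IsReps.bijOn : Set.BijOn (fun i => ((r i : H) : H ⧸ K)) Set.univ
    {y : H ⧸ K | ∃ a : H, (a : H ⧸ K) = y ∧ a ∈ C} := by
  refine ⟨fun i _ => ⟨r i, rfl, hr.mem i⟩, fun i _ j _ h => hr.inj i j (QuotientGroup.eq.1 h), ?_⟩
  rintro _ ⟨a, rfl, ha⟩
  obtain ⟨i, hi⟩ := hr.cover a ha
  exact ⟨i, Set.mem_univ _, QuotientGroup.eq.2 hi⟩

theorem IsReps.finite : {y : H ⧸ K | ∃ a : H, (a : H ⧸ K) = y ∧ a ∈ C}.Finite := by
  rw [← hr.bijOn.image_eq]
  exact Set.finite_univ.image _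

theorem IsReps.finsum (Φ : H ⧸ K → ℂ) (hΦ : ∀ a : H, Φ (a : H ⧸ K) ≠ 0 → a ∈ C) :
    ∑ᶠ y, Φ y = ∑ i, Φ (r i : H) := by
  have h1 : ∑ᶠ y, Φ y = ∑ᶠ y ∈ {y : H ⧸ K | ∃ a : H, (a : H ⧸ K) = y ∧ a ∈ C}, Φ y := by
    rw [finsum_mem_def]
    refine finsum_congr fun y => ?_
    by_cases h : Φ y = 0
    · rw [h]
      by_cases hy : y ∈ {y : H ⧸ K | ∃ a : H, (a : H ⧸ K) = y ∧ a ∈ C}
      · rw [Set.indicator_of_mem hy, h]
      · rw [Set.indicator_of_notMem hy]
    · rw [Set.indicator_of_mem]
      induction y using QuotientGroup.induction_on with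
      | H a => exact ⟨a, rfl, hΦ a h⟩
  rw [h1, ← finsum_mem_eq_of_bijOn _ hr.bijOn (fun i _ => rfl), finsum_mem_univ,
    finsum_eq_sum_of_fintype]

open Classical in
/-- the indicator function of `C` -/
noncomputable def indC : HAlg K :=
  HAlg.mk ⟨fun x => if x ∈ C then 1 else 0, fun k hk k' hk' y => by
    rw [if_congr (C.mul_mem_cancel_right (hr.le hk')) rfl rfl,
      if_congr (C.mul_mem_cancel_left (hr.le hk)) rfl rfl]⟩ (hr.finite.subset (by
    rintro _ ⟨a, rfl, ha⟩
    refine ⟨a, rfl, ?_⟩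
    by_contra h
    exact ha (if_neg h)))

omit [Fintype ι] in
open Classical in
theorem indC_f [Fintype ι] (x : H) : (indC hr).bi.f x = if x ∈ C then 1 else 0 := rfl

theorem indC_mul (F : HAlg K) (x : H) :
    (indC hr * F).bi.f x = ∑ i, F.bi.f ((r i)⁻¹ * x) := by
  rw [HAlg.mul_f, hr.finsum]
  · refine Finset.sum_congr rfl fun i _ => ?_
    rw [BiInv.convAux_mk, indC_f, if_pos (hr.mem i), one_mul]
  · intro a ha
    rw [BiInv.convAux_mk, indC_f] at ha
    by_contra h
    rw [if_neg h, zero_mul] at ha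
    exact ha rfl

open Classical in
theorem indC_mul_self : indC hr * indC hr = (Fintype.card ι : ℂ) • indC hr := by
  refine HAlg.ext fun x => ?_
  rw [indC_mul, HAlg.smul_f]
  have h1 : ∀ i, (indC hr).bi.f ((r i)⁻¹ * x) = (indC hr).bi.f x := fun i => by
    have h2 : (r i)⁻¹ * x ∈ C ↔ x ∈ C := C.mul_mem_cancel_left (C.inv_mem (hr.mem i))
    rw [indC_f, indC_f, if_congr h2 rfl rfl]
  simp_rw [h1]
  rw [Finset.sum_const, Finset.card_univ, nsmul_eq_mul]

end Reps

/-- an element normalising `K` -/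
structure IsNorm (K : Subgroup H) (w : H) : Prop where
  conj : ∀ k ∈ K, w * k * w⁻¹ ∈ K
  conj' : ∀ k ∈ K, w⁻¹ * k * w ∈ K

section Norm

variable {w : H} (hw : IsNorm K w)

include hw

theorem IsNorm.iff_left {k : H} (hk : k ∈ K) (x : H) : w⁻¹ * (k * x) ∈ K ↔ w⁻¹ * x ∈ K := by
  have h1 : w⁻¹ * (k * x) = (w⁻¹ * k * w) * (w⁻¹ * x) := by group
  rw [h1, K.mul_mem_cancel_left (hw.conj' k hk)]

open Classical in
/-- the indicator function of `w K` -/
noncomputable def indW : HAlg K :=
  HAlg.mk ⟨fun x => if w⁻¹ * x ∈ K then 1 else 0, fun k hk k' hk' y => by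
    rw [← mul_assoc, if_congr (K.mul_mem_cancel_right hk') rfl rfl,
      if_congr (hw.iff_left hk y) rfl rfl]⟩ (by
    refine (Set.finite_singleton ((w : H) : H ⧸ K)).subset ?_
    rintro _ ⟨a, rfl, ha⟩
    rw [Set.mem_singleton_iff, QuotientGroup.eq]
    have h1 : w⁻¹ * a ∈ K := by
      by_contra h
      exact ha (if_neg h)
    have h2 : a⁻¹ * w = (w⁻¹ * a)⁻¹ := by group
    rw [h2]
    exact K.inv_mem h1)

open Classical in
theorem indW_f (x : H) : (indW hw).bi.f x = if w⁻¹ * x ∈ K then 1 else 0 := rfl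

theorem indW_mul (F : HAlg K) (x : H) : (indW hw * F).bi.f x = F.bi.f (w⁻¹ * x) := by
  rw [HAlg.mul_f, finsum_eq_single _ ((w : H) : H ⧸ K)]
  · rw [BiInv.convAux_mk, indW_f, if_pos (by rw [inv_mul_cancel]; exact K.one_mem), one_mul]
  · intro a ha
    induction a using QuotientGroup.induction_on with
    | H a =>
    rw [BiInv.convAux_mk, indW_f, if_neg, zero_mul]
    intro h
    apply ha
    rw [QuotientGroup.eq]
    have h2 : a⁻¹ * w = (w⁻¹ * a)⁻¹ := by group
    rw [h2]
    exact K.inv_mem h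

theorem mul_indW (F : HAlg K) (x : H) : (F * indW hw).bi.f x = F.bi.f (x * w⁻¹) := by
  rw [HAlg.mul_f, finsum_eq_single _ ((x * w⁻¹ : H) : H ⧸ K)]
  · rw [BiInv.convAux_mk, indW_f, if_pos, mul_one]
    have : w⁻¹ * ((x * w⁻¹)⁻¹ * x) = 1 := by group
    rw [this]
    exact K.one_mem
  · intro a ha
    induction a using QuotientGroup.induction_on with
    | H a =>
    rw [BiInv.convAux_mk, indW_f, if_neg, mul_zero]
    intro h
    apply ha
    rw [QuotientGroup.eq]
    have h2 : a⁻¹ * (x * w⁻¹) = w * (w⁻¹ * (a⁻¹ * x)) * w⁻¹ := by group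
    rw [h2]
    exact hw.conj _ h

open Classical in
theorem indW_mul_self (h2 : w * w ∈ K) : indW hw * indW hw = 1 := by
  refine HAlg.ext fun x => ?_
  rw [indW_mul, indW_f, HAlg.one_bi, BiInv.unit_f]
  have h3 : w⁻¹ * (w⁻¹ * x) = (w * w)⁻¹ * x := by group
  have h4 : (w * w)⁻¹ * x ∈ K ↔ x ∈ K := K.mul_mem_cancel_left (K.inv_mem h2)
  rw [h3, if_congr h4 rfl rfl]

end Norm

end

end Fermat.Agent.LT.V0
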