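import Fermat.Agent.LT.V0.HAlg
import Fermat.Agent.LT.Glob.HeckeLoc

/-!
# The Iwahori–Hecke algebra of `PGL₂`
-/

set_option autoImplicit false

universe u

namespace Fermat.Agent.LT.V0

open Matrix Fermat.Agent.LT.Loc Fermat.Agent.LT.Glob
open scoped MatrixGroups

section Group

variable {R : Type u} [CommRing R] {O : Subring R} {ϖ : Rˣ}

theorem inv_one_zero (g : GL (Fin 2) R) :
    (g⁻¹ : GL (Fin 2) R) 1 0 = ((GeneralLinearGroup.det g)⁻¹ : Rˣ).val * (-g 1 0) := by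
  show ((g⁻¹ : GL (Fin 2) R) : Matrix (Fin 2) (Fin 2) R) 1 0 = _
  rw [inv_entries]
  simp

/-- the Iwahori subgroup of `GL₂(O)` -/
def GIw (O : Subring R) (ϖ : Rˣ) : Subgroup (GL (Fin 2) R) where
  carrier := {g | g ∈ GLO O ∧ ((ϖ⁻¹ : Rˣ) : R) * g 1 0 ∈ O}
  one_mem' := ⟨one_mem _, by simp [O.zero_mem]⟩
  mul_mem' := by
    rintro g h ⟨hg, hg'⟩ ⟨hh, hh'⟩
    refine ⟨mul_mem hg hh, ?_⟩
    have e : (g * h : GL (Fin 2) R) 1 0 = g 1 0 * h 0 0 + g 1 1 * h 1 0 := by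
      rw [Units.val_mul, Matrix.mul_apply, Fin.sum_univ_two]
    have e' : ((ϖ⁻¹ : Rˣ) : R) * (g * h : GL (Fin 2) R) 1 0 =
        (((ϖ⁻¹ : Rˣ) : R) * g 1 0) * h 0 0 + g 1 1 * (((ϖ⁻¹ : Rˣ) : R) * h 1 0) := by
      rw [e]; ring
    show ((ϖ⁻¹ : Rˣ) : R) * (g * h : GL (Fin 2) R) 1 0 ∈ O
    rw [e']
    exact O.add_mem (O.mul_mem hg' (hh.1 0 0)) (O.mul_mem (hg.1 1 1) hh')
  inv_mem' := by
    rintro g ⟨hg, hg'⟩
    refine ⟨inv_mem hg, ?_⟩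
    have hd := (mem_GLO_iff.1 hg).2
    have e' : ((ϖ⁻¹ : Rˣ) : R) * (g⁻¹ : GL (Fin 2) R) 1 0 =
        -(((GeneralLinearGroup.det g)⁻¹ : Rˣ).val * (((ϖ⁻¹ : Rˣ) : R) * g 1 0)) := by
      rw [inv_one_zero]; ring
    show ((ϖ⁻¹ : Rˣ) : R) * (g⁻¹ : GL (Fin 2) R) 1 0 ∈ O
    rw [e']
    exact O.neg_mem (O.mul_mem hd hg')

theorem mem_GIw {g : GL (Fin 2) R} :
    g ∈ GIw O ϖ ↔ g ∈ GLO O ∧ ((ϖ⁻¹ : Rˣ) : R) * g 1 0 ∈ O := Iff.rfl

/-- **The Iwahori subgroup of `PGL₂(R)`.** -/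
def Iw (O : Subring R) (ϖ : Rˣ) : Subgroup PGL(2, R) := (GIw O ϖ).map ProjGenLinGroup.mk

theorem Iw_le (O : Subring R) (ϖ : Rˣ) : Iw O ϖ ≤ PO O := Subgroup.map_mono fun _ h => h.1

/-- the Iwahori subgroup contains a principal congruence subgroup -/
theorem PK_le_Iw {N : ℕ} (hN : ((ϖ⁻¹ : Rˣ) : R) * (N : R) ∈ O) : PK O N ≤ Iw O ϖ := by
  refine Subgroup.map_mono fun g hg => ⟨hg.1, ?_⟩
  obtain ⟨y, hy, h⟩ := hg.2 1 0
  have h' : g 1 0 = (N : R) * y := by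
    rw [← h, Matrix.one_apply_ne (by decide), sub_zero]
  rw [h', ← mul_assoc]
  exact O.mul_mem hN hy

theorem scalar_mem_of_GLO {z : Rˣ} (h : sc z ∈ GLO O) : (z : R) ∈ O ∧ ((z⁻¹ : Rˣ) : R) ∈ O := by
  constructor
  · have := h.1 0 0
    rw [sc_coe] at this
    simpa using this
  · have := h.2 0 0
    rw [← map_inv, sc_coe] at this
    simpa using this

theorem mk_mem_Iw_iff {g : GL (Fin 2) R} (hg : g ∈ GLO O) :
    ProjGenLinGroup.mk g ∈ Iw O ϖ ↔ g ∈ GIw O ϖ := by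
  refine ⟨?_, fun h => ⟨g, h, rfl⟩⟩
  rintro ⟨h, hh, e⟩
  obtain ⟨u, hu⟩ := ProjGenLinGroup.mk_eq_mk_iff.mp e
  have e1 : sc u = h⁻¹ * g := by
    rw [← hu]
    show sc u = h⁻¹ * (h * sc u)
    rw [inv_mul_cancel_left]
  have h1 : sc u ∈ GLO O := by rw [e1]; exact mul_mem (inv_mem hh.1) hg
  have hu' := (scalar_mem_of_GLO h1).1
  refine ⟨hg, ?_⟩
  have e2 : g 1 0 = (u : R) * h 1 0 := by
    have : g = sc u * h := by
      rw [sc_comm, e1, mul_inv_cancel_left]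
    rw [this, sc_mul_apply]
  rw [e2]
  have e3 : ((ϖ⁻¹ : Rˣ) : R) * ((u : R) * h 1 0) = (u : R) * (((ϖ⁻¹ : Rˣ) : R) * h 1 0) := by ring
  rw [e3]
  exact O.mul_mem hu' hh.2

/-- lower unipotent matrices -/
def lo (s : R) : GL (Fin 2) R where
  val := !![1, 0; s, 1]
  inv := !![1, 0; -s, 1]
  val_inv := by ext i j; fin_cases i <;> fin_cases j <;> simp [Matrix.mul_apply, Fin.sum_univ_two]
  inv_val := by ext i j; fin_cases i <;> fin_cases j <;> simp [Matrix.mul_apply, Fin.sum_univ_two]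

theorem lo_coe (s : R) : ((lo s : GL (Fin 2) R) : Matrix (Fin 2) (Fin 2) R) = !![1, 0; s, 1] := rfl

theorem lo_inv (s : R) : (lo s : GL (Fin 2) R)⁻¹ = lo (-s) := Units.ext rfl

theorem lo_mem {s : R} (hs : s ∈ O) : lo s ∈ GLO O := by
  refine ⟨fun i j => ?_, fun i j => ?_⟩
  · rw [lo_coe]
    fin_cases i <;> fin_cases j <;> simp [O.zero_mem, O.one_mem, hs]
  · rw [lo_inv, lo_coe]
    fin_cases i <;> fin_cases j <;> simp [O.zero_mem, O.one_mem, hs]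

theorem lo_mul_apply (s : R) (g : GL (Fin 2) R) :
    ((lo s * g : GL (Fin 2) R) : Matrix (Fin 2) (Fin 2) R) =
      !![g 0 0, g 0 1; s * g 0 0 + g 1 0, s * g 0 1 + g 1 1] := by
  rw [Units.val_mul, lo_coe]
  ext i j
  fin_cases i <;> fin_cases j <;> simp [Matrix.mul_apply, Fin.sum_univ_two]

theorem wR_mul_apply (g : GL (Fin 2) R) :
    ((wR * g : GL (Fin 2) R) : Matrix (Fin 2) (Fin 2) R) = !![g 1 0, g 1 1; g 0 0, g 0 1] := by
  rw [Units.val_mul, wR_coe]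
  ext i j
  fin_cases i <;> fin_cases j <;> simp [Matrix.mul_apply, Fin.sum_univ_two]

/-- representatives of `PGL₂(O)` modulo the Iwahori subgroup -/
def ir (B : Finset R) : Option B → GL (Fin 2) R
  | none => wR
  | some b => lo b

theorem isReps {B : Finset R} (h : Unif O ϖ B) :
    IsReps (PO O) (Iw O ϖ) (fun o => ProjGenLinGroup.mk (ir B o)) := by
  have hmem : ∀ o, ir B o ∈ GLO O := fun o => by
    cases o with
    | none => exact wR_mem O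
    | some b => exact lo_mem (h.sub _ b.2)
  refine ⟨Iw_le O ϖ, fun o => mk_mem_PO (hmem o), ?_, ?_⟩
  · rintro _ ⟨g, hg, rfl⟩
    rcases h.field _ (hg.1 0 0) with h1 | ⟨y, hy, h1⟩
    · refine ⟨none, wR * g, ⟨mul_mem (wR_mem O) hg, ?_⟩, ?_⟩
      · rw [wR_mul_apply]
        exact h1
      · rw [map_mul]
        congr 1
    · obtain ⟨b, hb, hb'⟩ := h.cover _ (O.mul_mem (hg.1 1 0) hy)
      refine ⟨some ⟨b, hb⟩, lo (-b) * g, ⟨mul_mem (lo_mem (O.neg_mem (h.sub b hb))) hg, ?_⟩, ?_⟩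
      · rw [lo_mul_apply]
        show ((ϖ⁻¹ : Rˣ) : R) * (-b * g 0 0 + g 1 0) ∈ O
        have e : ((ϖ⁻¹ : Rˣ) : R) * (-b * g 0 0 + g 1 0) =
            g 0 0 * (((ϖ⁻¹ : Rˣ) : R) * (g 1 0 * y - b)) -
              g 1 0 * (((ϖ⁻¹ : Rˣ) : R) * (g 0 0 * y - 1)) := by ring
        rw [e]
        exact O.sub_mem (O.mul_mem (hg.1 0 0) hb') (O.mul_mem (hg.1 1 0) h1)
      · rw [map_mul, ← lo_inv, map_inv]
        rfl
  · intro o o' ho
    have h1 : (ir B o)⁻¹ * ir B o' ∈ GIw O ϖ := by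
      rw [← map_inv, ← map_mul] at ho
      exact (mk_mem_Iw_iff (mul_mem (inv_mem (hmem o)) (hmem o'))).1 ho
    have h2 := h1.2
    cases o with
    | none =>
      cases o' with
      | none => rfl
      | some b =>
        exfalso
        apply h.not_mem
        change ((ϖ⁻¹ : Rˣ) : R) * ((wR : GL (Fin 2) R)⁻¹ * lo (b : R) : GL (Fin 2) R) 1 0 ∈ O at h2
        rw [wR_inv, wR_mul_apply, lo_coe] at h2
        simpa using h2
    | some b =>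
      cases o' with
      | none =>
        exfalso
        apply h.not_mem
        change ((ϖ⁻¹ : Rˣ) : R) * ((lo (b : R))⁻¹ * wR : GL (Fin 2) R) 1 0 ∈ O at h2
        rw [lo_inv, lo_mul_apply, wR_coe] at h2
        simpa using h2
      | some b' =>
        change ((ϖ⁻¹ : Rˣ) : R) * ((lo (b : R))⁻¹ * lo (b' : R) : GL (Fin 2) R) 1 0 ∈ O at h2
        rw [lo_inv, lo_mul_apply, lo_coe] at h2
        congr 1
        apply Subtype.ext
        symm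
        apply h.inj _ b'.2 _ b.2
        convert h2 using 1
        simp
        ring

/-- the Atkin–Lehner element -/
def wI (ϖ : Rˣ) : GL (Fin 2) R where
  val := !![0, 1; (ϖ : R), 0]
  inv := !![0, ((ϖ⁻¹ : Rˣ) : R); 1, 0]
  val_inv := by ext i j; fin_cases i <;> fin_cases j <;> simp [Matrix.mul_apply, Fin.sum_univ_two]
  inv_val := by ext i j; fin_cases i <;> fin_cases j <;> simp [Matrix.mul_apply, Fin.sum_univ_two]

theorem wI_coe (ϖ : Rˣ) : ((wI ϖ : GL (Fin 2) R) : Matrix (Fin 2) (Fin 2) R) =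
    !![0, 1; (ϖ : R), 0] := rfl

theorem wI_inv_coe (ϖ : Rˣ) : (((wI ϖ)⁻¹ : GL (Fin 2) R) : Matrix (Fin 2) (Fin 2) R) =
    !![0, ((ϖ⁻¹ : Rˣ) : R); 1, 0] := rfl

theorem wI_sq (ϖ : Rˣ) : wI ϖ * wI ϖ = sc ϖ := by
  apply Units.ext
  rw [Units.val_mul, sc_coe, wI_coe]
  ext i j
  fin_cases i <;> fin_cases j <;> simp [Matrix.mul_apply, Fin.sum_univ_two]

theorem mk_wI_sq (ϖ : Rˣ) :
    (ProjGenLinGroup.mk (wI ϖ) * ProjGenLinGroup.mk (wI ϖ) : PGL(2, R)) = 1 := by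
  rw [← map_mul, wI_sq, sc, ProjGenLinGroup.mk_scalar]

theorem mk_wI_inv (ϖ : Rˣ) :
    (ProjGenLinGroup.mk (wI ϖ))⁻¹ = (ProjGenLinGroup.mk (wI ϖ) : PGL(2, R)) :=
  inv_eq_of_mul_eq_one_left (mk_wI_sq ϖ)

theorem wI_conj_apply (ϖ : Rˣ) (g : GL (Fin 2) R) :
    ((wI ϖ * g * (wI ϖ)⁻¹ : GL (Fin 2) R) : Matrix (Fin 2) (Fin 2) R) =
      !![g 1 1, ((ϖ⁻¹ : Rˣ) : R) * g 1 0; (ϖ : R) * g 0 1, g 0 0] := by
  rw [Units.val_mul, Units.val_mul, wI_coe, wI_inv_coe]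
  generalize (g : Matrix (Fin 2) (Fin 2) R) = A
  ext i j
  fin_cases i <;> fin_cases j <;>
    simp [Matrix.mul_apply, Fin.sum_univ_two, Matrix.vecMul, dotProduct, mul_comm]

theorem isNorm (hϖ : (ϖ : R) ∈ O) : IsNorm (Iw O ϖ) (ProjGenLinGroup.mk (wI ϖ)) := by
  have h : ∀ k ∈ Iw O ϖ, ProjGenLinGroup.mk (wI ϖ) * k * (ProjGenLinGroup.mk (wI ϖ))⁻¹ ∈
      Iw O ϖ := by
    rintro _ ⟨g, hg, rfl⟩
    refine ⟨wI ϖ * g * (wI ϖ)⁻¹, ⟨?_, ?_⟩, by rw [map_mul, map_mul, map_inv]⟩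
    · rw [mem_GLO_iff]
      constructor
      · intro i j
        rw [wI_conj_apply]
        fin_cases i <;> fin_cases j
        · exact hg.1.1 1 1
        · exact hg.2
        · exact O.mul_mem hϖ (hg.1.1 0 1)
        · exact hg.1.1 0 0
      · have e : GeneralLinearGroup.det (wI ϖ * g * (wI ϖ)⁻¹) = GeneralLinearGroup.det g := by
          rw [map_mul, map_mul, map_inv, mul_comm, inv_mul_cancel_left]
        rw [e]
        exact (mem_GLO_iff.1 hg.1).2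
    · rw [wI_conj_apply]
      show ((ϖ⁻¹ : Rˣ) : R) * ((ϖ : R) * g 0 1) ∈ O
      rw [← mul_assoc, Units.inv_mul, one_mul]
      exact hg.1.1 0 1
  refine ⟨h, fun k hk => ?_⟩
  have := h k hk
  rwa [mk_wI_inv] at this ⊢

end Group

end Fermat.Agent.LT.V0
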