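import Fermat.Agent.LT.V0.Hyp
import Fermat.Agent.LT.Glob.HypLoc
import Fermat.Agent.LT.Mp.Ctx

/-!
# The Iwahori–Hecke algebra for a subgroup known to be equal to the Iwahori subgroup
-/

set_option autoImplicit false

universe u

namespace Fermat.Agent.LT.V0

open Matrix Fermat.Agent.LT.Loc Fermat.Agent.LT.Glob
open scoped MatrixGroups

section

variable {R : Type u} [CommRing R]

/-- `K` is the Iwahori subgroup -/
structure IsIw (O : Subring R) (ϖ : Rˣ) (B : Finset R) (K : Subgroup PGL(2, R)) : Prop where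
  unif : Unif O ϖ B
  eq : K = Iw O ϖ

variable {O : Subring R} {ϖ : Rˣ} {B : Finset R} {K : Subgroup PGL(2, R)}

theorem IsIw.isReps (h : IsIw O ϖ B K) :
    IsReps (PO O) K (fun o => ProjGenLinGroup.mk (ir B o)) := by
  obtain ⟨hu, rfl⟩ := h
  exact V0.isReps hu

theorem IsIw.isNorm (h : IsIw O ϖ B K) : IsNorm K (ProjGenLinGroup.mk (wI ϖ)) := by
  obtain ⟨hu, rfl⟩ := h
  exact V0.isNorm hu.mem

/-- the spherical projector -/
noncomputable def kE (h : IsIw O ϖ B K) : HAlg K := ((B.card : ℂ) + 1)⁻¹ • indC h.isReps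

/-- the Atkin–Lehner operator -/
noncomputable def kW (h : IsIw O ϖ B K) : HAlg K := indW h.isNorm

/-- `U` -/
noncomputable def kU (h : IsIw O ϖ B K) : HAlg K := relU (B.card : ℂ) (kE h) (kW h)

/-- `Z` -/
noncomputable def kZ (h : IsIw O ϖ B K) : HAlg K := relZ (B.card : ℂ) (kE h) (kW h)

variable (h : IsIw O ϖ B K)

theorem kE_mul_self : kE h * kE h = kE h := by
  obtain ⟨hu, rfl⟩ := h
  exact iwE_mul_self hu

theorem kW_mul_self : kW h * kW h = 1 := by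
  obtain ⟨hu, rfl⟩ := h
  exact iwW_mul_self hu

theorem kU_pow_add_two (m : ℕ) :
    kU h ^ (m + 2) = kZ h * kU h ^ (m + 1) - (B.card : ℂ) • kU h ^ m :=
  relU_pow_add_two (kE_mul_self h) (kW_mul_self h) m

theorem kZ_mul_pow (m : ℕ) :
    kZ h * kU h ^ (m + 1) = kU h ^ (m + 2) + (B.card : ℂ) • kU h ^ m :=
  relZ_mul_pow (kE_mul_self h) (kW_mul_self h) m

theorem kZ_comm_U : Commute (kZ h) (kU h) := relZ_U (kE_mul_self h) (kW_mul_self h)

theorem kZ_comm_E : Commute (kZ h) (kE h) := relZ_e (kE_mul_self h)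

theorem kZ_comm_W : Commute (kZ h) (kW h) := relZ_w (kW_mul_self h)

theorem kZ_eq : kZ h = ((B.card : ℂ) + 1) •
    (kE h * kW h * kE h - (1 - kE h) * kW h * (1 - kE h)) := relZ_eq _ _ _

theorem kZU_supp (j m : ℕ) (hj : j < m) {g : PGL(2, R)}
    (hg : (kZ h ^ j * kU h ^ m).bi.f g ≠ 0) :
    ∃ i, m ≤ i + j ∧ i ≤ m + j ∧ g ∈ SU O ϖ i := by
  obtain ⟨hu, rfl⟩ := h
  exact iwZU_supp hu j m hj hg

/-! ### symmetry -/

open Classical in
theorem kE_symm (g : PGL(2, R)) : (kE h).bi.f g⁻¹ = (kE h).bi.f g := by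
  rw [kE, HAlg.smul_f, HAlg.smul_f, indC_f, indC_f]
  have : g⁻¹ ∈ PO O ↔ g ∈ PO O := inv_mem_iff
  rw [if_congr this rfl rfl]

open Classical in
theorem kW_symm (g : PGL(2, R)) : (kW h).bi.f g⁻¹ = (kW h).bi.f g := by
  rw [kW, indW_f, indW_f]
  have h2 := mk_wI_inv (R := R) ϖ
  have key : ∀ g : PGL(2, R), (ProjGenLinGroup.mk (wI ϖ))⁻¹ * g⁻¹ ∈ K →
      (ProjGenLinGroup.mk (wI ϖ))⁻¹ * g ∈ K := by
    intro g hg
    have h3 := K.inv_mem hg
    rw [_root_.mul_inv_rev, inv_inv, inv_inv] at h3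
    -- `g * w ∈ K`
    have h4 := h.isNorm.conj _ h3
    rwa [mul_assoc, mul_assoc, mul_inv_cancel, mul_one, ← h2] at h4
  have : (ProjGenLinGroup.mk (wI ϖ))⁻¹ * g⁻¹ ∈ K ↔ (ProjGenLinGroup.mk (wI ϖ))⁻¹ * g ∈ K :=
    ⟨key g, fun h5 => key g⁻¹ (by rwa [inv_inv])⟩
  rw [if_congr this rfl rfl]

theorem kE_real (g : PGL(2, R)) : starRingEnd ℂ ((kE h).bi.f g) = (kE h).bi.f g := by
  classical
  rw [kE, HAlg.smul_f, indC_f]
  split_ifs <;> simp

theorem kW_real (g : PGL(2, R)) : starRingEnd ℂ ((kW h).bi.f g) = (kW h).bi.f g := by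
  classical
  rw [kW, indW_f]
  split_ifs <;> simp

/-! ### the commutative set generated by `U` and `Z` -/

theorem kZU_mul (a m a' m' : ℕ) : (kZ h ^ a * kU h ^ m) * (kZ h ^ a' * kU h ^ m') =
    kZ h ^ (a + a') * kU h ^ (m + m') := by
  have hc : Commute (kU h ^ m) (kZ h ^ a') := ((kZ_comm_U h).symm.pow_pow m a')
  rw [mul_assoc, ← mul_assoc (kU h ^ m), hc.eq, mul_assoc, ← pow_add, ← mul_assoc, ← pow_add]

/-- the commutative set `{Z ^ a * U ^ m}` -/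
noncomputable def kSet : Mp.ConvSet K where
  carrier := {F | ∃ a m : ℕ, F = (kZ h ^ a * kU h ^ m).bi}
  unit_mem := ⟨0, 0, by rw [pow_zero, pow_zero, one_mul, HAlg.one_bi]⟩
  conv_mem := by
    rintro _ ⟨a, m, rfl⟩ _ ⟨a', m', rfl⟩
    exact ⟨a + a', m + m', by rw [← HAlg.mul_bi, kZU_mul]⟩
  comm := by
    rintro _ ⟨a, m, rfl⟩ _ ⟨a', m', rfl⟩
    rw [← HAlg.mul_bi, ← HAlg.mul_bi, kZU_mul, kZU_mul, add_comm a, add_comm m]
  fin := by
    rintro _ ⟨a, m, rfl⟩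
    exact HAlg.fin _

theorem mem_kSet (a m : ℕ) : (kZ h ^ a * kU h ^ m).bi ∈ (kSet h).carrier := ⟨a, m, rfl⟩

theorem kZ_mem : (kZ h).bi ∈ (kSet h).carrier := ⟨1, 0, by rw [pow_one, pow_zero, mul_one]⟩

theorem kU_mem (m : ℕ) : (kU h ^ m).bi ∈ (kSet h).carrier := ⟨0, m, by rw [pow_zero, one_mul]⟩

end

/-! ### hyperbolicity -/

section Field

variable {F : Type u} [Field F] {O : Subring F} {ϖ : Fˣ} {B : Finset F}

theorem mem_OU_of_val (hval : ∀ x : F, x ∈ O ∨ x⁻¹ ∈ O) {u : Fˣ}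
    (hu : (vring O hval).valuation (u : F) = 1) : u ∈ OU O := by
  refine ⟨(val_le_one hval).mp hu.le, (val_le_one hval).mp ?_⟩
  rw [Units.val_inv_eq_inv_val, map_inv₀, hu, inv_one]

theorem strong_SU (h : Unif O ϖ B) (hval : ∀ x : F, x ∈ O ∨ x⁻¹ ∈ O) {m : ℕ} (hm : 1 ≤ m) :
    Strong O ϖ m (SU O ϖ m) := by
  intro x a d t hx
  have h10 : (tri a d t : GL (Fin 2) F) 1 0 = 0 := by rw [tri_coe]; simp
  have h00 : (tri a d t : GL (Fin 2) F) 0 0 = a := by rw [tri_coe]; simp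
  have h11 : (tri a d t : GL (Fin 2) F) 1 1 = d := by rw [tri_coe]; simp
  have key := val_of_conj_mem_SU h hval hm h10 hx
  rw [h00, h11] at key
  set v := (vring O hval).valuation
  have hϖ : v (ϖ : F) ^ m ≠ 0 := pow_ne_zero _ ((map_ne_zero _).mpr ϖ.ne_zero)
  refine ⟨m, le_refl m, ?_⟩
  rcases key with h1 | h1
  · refine ⟨a * d⁻¹ * (ϖ ^ m)⁻¹, mem_OU_of_val hval ?_, Or.inl ?_⟩
    · have h2 : v ((a : F) * (d : F)⁻¹) = v (ϖ : F) ^ m := by rw [← div_eq_mul_inv]; exact h1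
      rw [Units.val_mul, Units.val_mul, Units.val_inv_eq_inv_val, Units.val_inv_eq_inv_val,
        Units.val_pow_eq_pow_val, map_mul, h2, map_inv₀, map_pow, mul_inv_cancel₀ hϖ]
    · rw [mul_comm (a * d⁻¹), mul_inv_cancel_left]
  · refine ⟨a * d⁻¹ * ϖ ^ m, mem_OU_of_val hval ?_, Or.inr ?_⟩
    · have h2 : v ((a : F) * (d : F)⁻¹) = (v (ϖ : F) ^ m)⁻¹ := by
        rw [← h1, ← map_inv₀, inv_div, div_eq_mul_inv]
      rw [Units.val_mul, Units.val_mul, Units.val_inv_eq_inv_val, Units.val_pow_eq_pow_val,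
        map_mul, h2, map_pow, inv_mul_cancel₀ hϖ]
    · rw [mul_comm (a * d⁻¹), inv_mul_cancel_left]

theorem strong_kZU {K : Subgroup PGL(2, F)} (h : IsIw O ϖ B K)
    (hval : ∀ x : F, x ∈ O ∨ x⁻¹ ∈ O) {a m : ℕ} (hm : a < m) :
    Strong O ϖ (m - a) {g | (kZ h ^ a * kU h ^ m).bi.f g ≠ 0} := by
  intro x a' d t hx
  obtain ⟨i, h1, -, h3⟩ := kZU_supp h a m hm hx
  exact (strong_SU h.unif hval (by omega)).anti (by omega) x a' d t h3

/-- elements conjugate into the support have nonzero trace -/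
theorem trace_ne_zero_of_kZU {K : Subgroup PGL(2, F)} (h : IsIw O ϖ B K)
    {a m : ℕ} (hm : a < m) {γ : GL (Fin 2) F} {x : PGL(2, F)}
    (hx : (kZ h ^ a * kU h ^ m).bi.f (x⁻¹ * ProjGenLinGroup.mk γ * x) ≠ 0) :
    (γ : Matrix (Fin 2) (Fin 2) F).trace ≠ 0 := by
  obtain ⟨i, -, -, h3⟩ := kZU_supp h a m hm hx
  exact trace_ne_zero_of_conj_mem_SU h.unif h3

end Field

/-! ### the `E`-side -/

section Tens

variable {G H : Type u} [Group G] [Group H] {σ : G →* G} {π : G →* H}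
  {K : Subgroup G} {K' : Subgroup H}

/-- the support of `F ⊗ 1 ⊗ 1` -/
theorem tens3_unit_ne_zero (hK : IsProd3 σ π K K') (F : BiInv K') {y : G}
    (hy : (tens3 hK F (BiInv.unit K') (BiInv.unit K')).f y ≠ 0) :
    F.f (π y * π (σ y) * π (σ (σ y))) ≠ 0 := by
  rw [tens3_f] at hy
  have h1 := BiInv.mem_of_unit_ne (right_ne_zero_of_mul hy)
  have h2 := BiInv.mem_of_unit_ne (right_ne_zero_of_mul (left_ne_zero_of_mul hy))
  have h3 := left_ne_zero_of_mul (left_ne_zero_of_mul hy)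
  rwa [F.mul_right _ h1, F.mul_right _ h2]

end Tens

end Fermat.Agent.LT.V0
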