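import Fermat.Agent.LT.V0.Sph
import Fermat.Agent.LT.Mp.V0Supp
import Fermat.Agent.LT.Op.Tw
import Fermat.Agent.LT.FA.IwHilb

/-!
# The operators at the auxiliary split place
-/

set_option autoImplicit false
set_option linter.unusedSectionVars false

universe w u i

namespace Fermat.Agent.LT.V0

open MeasureTheory ProbabilityTheory NumberField Matrix Filter
open scoped ENNReal NNReal MatrixGroups InnerProductSpace
open Fermat.Agent.LT.FA Fermat.Agent.LT.Sp Fermat.Agent.LT.Op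
open Fermat.Agent.LT.Loc Fermat.Agent.LT.Glob Fermat.Agent.LT.Glob.LocFam

/-! ### self adjoint elements -/

section SA

variable {H : Type u} [Group H] {K : Subgroup H}

/-- self adjoint elements of the Hecke algebra -/
def IsSA (hK : FinOrb K) (F : HAlg K) : Prop := F.hk.adj hK = F.hk

theorem isSA_of (hK : FinOrb K) {F : HAlg K} (h1 : ∀ g, F.bi.f g⁻¹ = F.bi.f g)
    (h2 : ∀ g, starRingEnd ℂ (F.bi.f g) = F.bi.f g) : IsSA hK F := by
  apply Hk.adj_eq_self
  intro g
  change starRingEnd ℂ (F.bi.f g⁻¹) = F.bi.f g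
  rw [h2, h1]

theorem hk_sub (F G : HAlg K) : (F - G).hk = F.hk - G.hk := by
  apply Hk.ext_f
  intro g
  have e : F.hk - G.hk = F.hk + (-1 : ℂ) • G.hk := by rw [neg_one_smul, sub_eq_add_neg]
  rw [e, Hk.add_f, Hk.csmul_f]
  change (F - G).bi.f g = F.bi.f g + -1 * G.bi.f g
  rw [HAlg.sub_f]; ring

theorem isSA_relZ (hK : FinOrb K) {e w : HAlg K} (he : IsSA hK e) (hw : IsSA hK w) (q : ℕ) :
    IsSA hK (relZ (q : ℂ) e w) := by
  rw [IsSA] at he hw ⊢
  have h1 : (relZ (q : ℂ) e w).hk =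
      ((q : ℂ) + 1) • (e.hk * w.hk + w.hk * e.hk + (-1 : ℂ) • w.hk) := by
    rw [relZ, HAlg.hk_smul, hk_sub, HAlg.hk_add, HAlg.hk_mul, HAlg.hk_mul, neg_one_smul,
      sub_eq_add_neg]
  rw [h1, Hk.adj_csmul, Hk.adj_add, Hk.adj_add, Hk.adj_mul, Hk.adj_mul, Hk.adj_csmul, he, hw,
    add_comm (w.hk * e.hk)]
  congr 1
  · simp
  · simp

end SA

section Alg0

variable {F : Type u} [Field F] {ι : Type i} {L : LocFam.{w} F ι} {U : L.Level}
  {A : LocFam.Auto L}

theorem ker_dmap (hP : A.Pres U) {φ φ' : GFun U}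
    (h : ∀ v g, (φ'.f v).f (A.g v g) = (φ.f v).f g) (x y : D U) :
    φ'.ker (Auto.dmap hP x) (Auto.dmap hP y) = φ.ker x y := by
  rw [GFun.ker_apply, GFun.ker_apply]
  refine finprod_congr fun v => ?_
  rw [Auto.dmap_apply, Auto.dmap_apply]
  generalize x v = a
  generalize y v = b
  induction a using QuotientGroup.induction_on with
  | H a =>
  induction b using QuotientGroup.induction_on with
  | H b =>
  rw [Auto.xmap_mk, Auto.xmap_mk, Hk.ker_mk, Hk.ker_mk, ← map_inv, ← map_mul]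
  exact h v _

theorem Auto.mem_iff (hA : A.IsCubic) (hP : A.Pres U) (v : ι) (g : L.G v) :
    A.g v g ∈ U.U v ↔ g ∈ U.U v := by
  constructor
  · intro h
    have := hP v _ (hP v _ h)
    rwa [hA.g_g_g] at this
  · exact hP v g

theorem unit_twist (hA : A.IsCubic) (hP : A.Pres U) (v : ι) (g : L.G v) :
    (BiInv.unit (U.U v)).f (A.g v g) = (BiInv.unit (U.U v)).f g := by
  classical
  rw [BiInv.unit_f, BiInv.unit_f]
  exact if_congr (Auto.mem_iff hA hP v g) rfl rfl

theorem single_twist (hA : A.IsCubic) (hP : A.Pres U) (v₀ : ι) {X X' : HAlg (U.U v₀)}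
    (h : ∀ g, X'.bi.f (A.g v₀ g) = X.bi.f g) (v : ι) (g : L.G v) :
    ((GFun.single v₀ X'.hk).f v).f (A.g v g) = ((GFun.single v₀ X.hk).f v).f g := by
  by_cases hv : v = v₀
  · subst hv
    rw [GFun.f, GFun.f, GFun.single_self, GFun.single_self]
    exact h g
  · rw [GFun.f, GFun.f, GFun.single_of_ne hv, GFun.single_of_ne hv, Hk.toBiInv_one]
    exact unit_twist hA hP v g

variable [NumberField F]

theorem tw_toDKer (hA : A.IsCubic) (hP : A.Pres U) {φ φ' : GFun U}
    (h : ∀ v g, (φ'.f v).f (A.g v g) = (φ.f v).f g) :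
    tw (Auto.twist hA hP) φ.toDKer = φ'.toDKer := by
  apply DKer.ext'
  intro d d'
  obtain ⟨x, rfl⟩ := (Auto.twist hA hP).dm.surjective d
  obtain ⟨y, rfl⟩ := (Auto.twist hA hP).dm.surjective d'
  change φ.ker ((Auto.twist hA hP).dm.symm ((Auto.twist hA hP).dm x))
    ((Auto.twist hA hP).dm.symm ((Auto.twist hA hP).dm y)) = _
  rw [Equiv.symm_apply_apply, Equiv.symm_apply_apply]
  exact (ker_dmap hP h x y).symm

/-- self adjointness of `Z` on the `k`-side -/
theorem isSA_kZ {v₀ : ι} {ϖ : (L.R v₀)ˣ} {B : Finset (L.R v₀)}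
    (h : IsIw (L.O v₀) ϖ B (U.U v₀)) : IsSA (finOrb U v₀) (kZ h) :=
  isSA_relZ _ (isSA_of _ (kE_symm h) (kE_real h)) (isSA_of _ (kW_symm h) (kW_real h)) _

/-- self adjointness of `Z` on the `E`-side -/
theorem isSA_jZ {v₀ : ι} {R₀ : Type w} [CommRing R₀] {i : R₀ →+* L.R v₀}
    {π : L.R v₀ →+* R₀} (S : SplitRing (A.s v₀) i π) {O₀ : Subring R₀}
    {K' : Subgroup PGL(2, R₀)}
    (hp : IsProd3 (ProjGenLinGroup.map (n := Fin 2) (A.s v₀ : L.R v₀ →+* L.R v₀))
      (ProjGenLinGroup.map (n := Fin 2) π) (U.U v₀) K')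
    {ϖ : R₀ˣ} {B : Finset R₀} (h : IsIw O₀ ϖ B K') (j : Fin 3) :
    IsSA (finOrb U v₀) (jH S.pgl_split3 hp j (kZ h)) := by
  have h1 : jH S.pgl_split3 hp j (kZ h) = relZ (B.card : ℂ) (jH S.pgl_split3 hp j (kE h))
      (jH S.pgl_split3 hp j (kW h)) := by
    rw [kZ, relZ, relZ, map_smul, map_sub, map_add, map_mul, map_mul]
  rw [h1]
  exact isSA_relZ _ (isSA_of _ (jH_symm S.pgl_split3 hp (kE_symm h) j)
    (jH_real S.pgl_split3 hp (kE_real h) j)) (isSA_of _ (jH_symm S.pgl_split3 hp (kW_symm h) j)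
    (jH_real S.pgl_split3 hp (kW_real h) j)) _

theorem single_adj [IsTotallyComplex F] (v : ι) {A : HAlg (U.U v)}
    (hA : IsSA (finOrb U v) A) :
    (GFun.single v A.hk).toDKer.adj = (GFun.single v A.hk).toDKer := by
  rw [← GFun.toDKer_adj, GFun.adj_single, hA]

end Alg0

section OpS

variable {F : Type u} [Field F] [NumberField F] [IsTotallyComplex F] {ι : Type i}
  {L : LocFam.{w} F ι} {U : L.Level} [MeasurableSpace (D U)] [DiscreteMeasurableSpace (D U)]
  [Countable (D U)] {wt : HF F × D U → ℝ≥0} [IsFiniteMeasure (wtM (muY F (D U)) wt)]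

/-- **the operators of the Hecke algebra at one place** -/
noncomputable def opS (hw : IsWt PGL(2, F) (muY F (D U)) wt) (v : ι) : HAlg (U.U v) →ₐ[ℂ]
    (HA PGL(2, F) (muY F (D U)) →L[ℂ] HA PGL(2, F) (muY F (D U))) :=
  AlgHom.ofLinearMap
    { toFun := fun A => opD hw (GFun.single v A.hk).toDKer
      map_add' := fun A A' => by
        rw [← opD_add]
        congr 1
        apply DKer.ext'
        intro d d'
        change (GFun.single v (A + A').hk).ker d d' = (GFun.single v A.hk).ker d d' +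
          (GFun.single v A'.hk).ker d d'
        rw [HAlg.hk_add, GFun.single, GFun.ker_update_add]
        rfl
      map_smul' := fun c A => by
        rw [RingHom.id_apply, ← opD_cmul]
        congr 1
        apply DKer.ext'
        intro d d'
        change (GFun.single v (c • A).hk).ker d d' = c * (GFun.single v A.hk).ker d d'
        rw [HAlg.hk_smul, GFun.single, GFun.ker_update_smul]
        rfl }
    (by
      change opD hw (GFun.single v (1 : HAlg (U.U v)).hk).toDKer = 1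
      rw [HAlg.hk_one, GFun.single_one, GFun.toDKer_one, opD_one])
    (fun A A' => by
      change opD hw (GFun.single v (A * A').hk).toDKer = opD hw (GFun.single v A.hk).toDKer *
        opD hw (GFun.single v A'.hk).toDKer
      rw [HAlg.hk_mul, ← GFun.single_mul_single, GFun.toDKer_mul, opD_mul])

theorem opS_apply (hw : IsWt PGL(2, F) (muY F (D U)) wt) (v : ι) (A : HAlg (U.U v)) :
    opS hw v A = opD hw (GFun.single v A.hk).toDKer := rfl

theorem opS_adj (hw : IsWt PGL(2, F) (muY F (D U)) wt) (v : ι) {A : HAlg (U.U v)}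
    (hA : IsSA (finOrb U v) A) : ContinuousLinearMap.adjoint (opS hw v A) = opS hw v A := by
  rw [opS_apply, opD_adj, single_adj v hA]

theorem opS_isSymmetric (hw : IsWt PGL(2, F) (muY F (D U)) wt) (v : ι) {A : HAlg (U.U v)}
    (hA : IsSA (finOrb U v) A) :
    ((opS hw v A : HA PGL(2, F) (muY F (D U)) →L[ℂ] HA PGL(2, F) (muY F (D U))) :
      HA PGL(2, F) (muY F (D U)) →ₗ[ℂ] HA PGL(2, F) (muY F (D U))).IsSymmetric := by
  intro x y
  have h := opS_adj hw v hA
  change ⟪opS hw v A x, y⟫_ℂ = ⟪x, opS hw v A y⟫_ℂ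
  conv_lhs => rw [← h]
  exact ContinuousLinearMap.adjoint_inner_left (opS hw v A) y x

/-- operators at one place commute with operators which are trivial at this place -/
theorem opS_commute_opD (hw : IsWt PGL(2, F) (muY F (D U)) wt) (v : ι) (A : HAlg (U.U v))
    {b : GFun U} (hb : b v = 1) : Commute (opS hw v A) (opD hw b.toDKer) := by
  change opS hw v A * opD hw b.toDKer = opD hw b.toDKer * opS hw v A
  rw [opS_apply]
  refine opD_comm hw _ _ (GFun.toDKer_comm (GFun.commute_single ?_))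
  rw [hb]
  exact Commute.one_right _

/-! ### the twist -/

section Twist

variable {A : LocFam.Auto L}

theorem opT_opS (hw : IsWt PGL(2, F) (muY F (D U)) wt) (hA : A.IsCubic) (hP : A.Pres U) (v₀ : ι)
    {X X' : HAlg (U.U v₀)} (h : ∀ g, X'.bi.f (A.g v₀ g) = X.bi.f g) :
    opT hw (Auto.twist hA hP) * opS hw v₀ X = opS hw v₀ X' * opT hw (Auto.twist hA hP) := by
  rw [opS_apply, opS_apply, opT_opD, tw_toDKer hA hP (single_twist hA hP v₀ h)]

theorem opD_commute_opT (hw : IsWt PGL(2, F) (muY F (D U)) wt) (hA : A.IsCubic) (hP : A.Pres U)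
    {b : GFun U} (h : ∀ v g, (b.f v).f (A.g v g) = (b.f v).f g) :
    Commute (opD hw b.toDKer) (opT hw (Auto.twist hA hP)) := by
  change opD hw b.toDKer * opT hw (Auto.twist hA hP) = opT hw (Auto.twist hA hP) *
    opD hw b.toDKer
  rw [opT_opD, tw_toDKer hA hP h]

end Twist

/-! ### the three Iwahori–Hecke algebras -/

section Three

variable {A : LocFam.Auto L} {v₀ : ι} {R₀ : Type w} [CommRing R₀] {i : R₀ →+* L.R v₀}
  {π : L.R v₀ →+* R₀} (S : SplitRing (A.s v₀) i π) {O₀ : Subring R₀} {K' : Subgroup PGL(2, R₀)}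
  (hp : IsProd3 (ProjGenLinGroup.map (n := Fin 2) (A.s v₀ : L.R v₀ →+* L.R v₀))
    (ProjGenLinGroup.map (n := Fin 2) π) (U.U v₀) K')
  {ϖ : R₀ˣ} {B : Finset R₀} (h : IsIw O₀ ϖ B K')

/-- the order of the factors -/
def τ3 : Fin 3 → Fin 3 := ![0, 2, 1]

theorem τ3_zero : τ3 0 = 0 := rfl

theorem τ3_add (j : Fin 3) : τ3 (j + 1) + 1 = τ3 j := by
  fin_cases j <;> rfl

theorem τ3_inj {j l : Fin 3} (h : j ≠ l) : τ3 j ≠ τ3 l := by
  fin_cases j <;> fin_cases l <;> first
    | exact absurd rfl h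
    | (intro h'; exact absurd h' (by decide))

theorem τ3_surj (l : Fin 3) : ∃ j, τ3 j = l := by
  fin_cases l
  · exact ⟨0, rfl⟩
  · exact ⟨2, rfl⟩
  · exact ⟨1, rfl⟩

/-- the operators of the `j`-th algebra -/
noncomputable def opJ (hw : IsWt PGL(2, F) (muY F (D U)) wt) (j : Fin 3) : HAlg K' →ₐ[ℂ]
    (HA PGL(2, F) (muY F (D U)) →L[ℂ] HA PGL(2, F) (muY F (D U))) :=
  (opS hw v₀).comp (jH S.pgl_split3 hp (τ3 j))

theorem opJ_apply (hw : IsWt PGL(2, F) (muY F (D U)) wt) (j : Fin 3) (X : HAlg K') :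
    opJ S hp hw j X = opD hw (GFun.single v₀ (jH S.pgl_split3 hp (τ3 j) X).hk).toDKer := rfl

theorem opJ_comm (hw : IsWt PGL(2, F) (muY F (D U)) wt) {j l : Fin 3} (hjl : j ≠ l)
    (X Y : HAlg K') : Commute (opJ S hp hw j X) (opJ S hp hw l Y) :=
  (jH_comm S.pgl_split3 hp (τ3_inj hjl) X Y).map (opS hw v₀)

theorem opT_opJ (hw : IsWt PGL(2, F) (muY F (D U)) wt) (hA : A.IsCubic) (hP : A.Pres U)
    (j : Fin 3) (X : HAlg K') :
    opT hw (Auto.twist hA hP) * opJ S hp hw j X =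
      opJ S hp hw (j + 1) X * opT hw (Auto.twist hA hP) := by
  refine opT_opS hw hA hP v₀ fun g => ?_
  have h1 := jH_twist S.pgl_split3 hp (τ3 (j + 1)) X g
  rw [τ3_add] at h1
  exact h1.symm

theorem opJ_commute_opD (hw : IsWt PGL(2, F) (muY F (D U)) wt) (j : Fin 3) (X : HAlg K')
    {b : GFun U} (hb : b v₀ = 1) : Commute (opJ S hp hw j X) (opD hw b.toDKer) :=
  opS_commute_opD hw v₀ _ hb

include h in
/-- **The structure at the auxiliary place.** -/
theorem iwOps (hw : IsWt PGL(2, F) (muY F (D U)) wt) (hA : A.IsCubic) (hP : A.Pres U)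
    {b : GFun U} (hb : b v₀ = 1) (hbb : b * b = b)
    (hbσ : ∀ v g, (b.f v).f (A.g v g) = (b.f v).f g) :
    IwOps (fun j => opJ S hp hw j (kZ h)) (fun j => opJ S hp hw j (kE h))
      (fun j => opJ S hp hw j (kW h)) (opD hw b.toDKer) (opT hw (Auto.twist hA hP))
      (B.card : ℂ) where
  idem j := by
    change opJ S hp hw j (kE h) * opJ S hp hw j (kE h) = opJ S hp hw j (kE h)
    rw [← map_mul, kE_mul_self]
  invol j := by
    change opJ S hp hw j (kW h) * opJ S hp hw j (kW h) = 1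
    rw [← map_mul, kW_mul_self, map_one]
  ee j l := by
    by_cases hjl : j = l
    · subst hjl; exact Commute.refl _
    · exact opJ_comm S hp hw hjl _ _
  eo j l hjl := opJ_comm S hp hw hjl _ _
  oo j l hjl := opJ_comm S hp hw hjl _ _
  se j := opT_opJ S hp hw hA hP j _
  so j := opT_opJ S hp hw hA hP j _
  Be j := (opJ_commute_opD S hp hw j _ hb).symm
  Bo j := (opJ_commute_opD S hp hw j _ hb).symm
  Bs := opD_commute_opT hw hA hP hbσ
  BB := by rw [opD_mul, ← GFun.toDKer_mul, hbb]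
  central j := by
    change opJ S hp hw j (kZ h) = ((B.card : ℂ) + 1) • (opJ S hp hw j (kE h) *
      opJ S hp hw j (kW h) * opJ S hp hw j (kE h) - (1 - opJ S hp hw j (kE h)) *
      opJ S hp hw j (kW h) * (1 - opJ S hp hw j (kE h)))
    rw [kZ_eq, map_smul, map_sub, map_mul, map_mul, map_mul, map_mul, map_sub, map_one]

theorem opJ_isSymmetric (hw : IsWt PGL(2, F) (muY F (D U)) wt) (j : Fin 3) :
    ((opJ S hp hw j (kZ h) : HA PGL(2, F) (muY F (D U)) →L[ℂ] HA PGL(2, F) (muY F (D U))) :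
      HA PGL(2, F) (muY F (D U)) →ₗ[ℂ] HA PGL(2, F) (muY F (D U))).IsSymmetric :=
  opS_isSymmetric hw v₀ (isSA_jZ S hp h _)

end Three

end OpS

end Fermat.Agent.LT.V0
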