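import Fermat.Agent.LT.V0.Iwk

/-!
# The three embeddings of the Hecke algebra at a split place
-/

set_option autoImplicit false

universe u

namespace Fermat.Agent.LT.V0

open Fermat.Agent.LT.Loc

section

variable {G H : Type u} [Group G] [Group H] {σ : G →* G} {ι : H →* G} {π : G →* H}
  {K : Subgroup G} {K' : Subgroup H} (S : Split3 σ ι π) (hK : IsProd3 σ π K K')

/-- the tensor product of three elements of the Hecke algebra -/
def tH (F₁ F₂ F₃ : HAlg K') : HAlg K :=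
  HAlg.mk (tens3 hK F₁.bi F₂.bi F₃.bi) (tens3_fin S hK F₁.fin F₂.fin F₃.fin)

theorem tH_bi (F₁ F₂ F₃ : HAlg K') : (tH S hK F₁ F₂ F₃).bi = tens3 hK F₁.bi F₂.bi F₃.bi := rfl

theorem tH_f (F₁ F₂ F₃ : HAlg K') (g : G) : (tH S hK F₁ F₂ F₃).bi.f g =
    F₁.bi.f (π g) * F₂.bi.f (π (σ g)) * F₃.bi.f (π (σ (σ g))) := rfl

theorem tH_mul (F₁ F₂ F₃ F₁' F₂' F₃' : HAlg K') :
    tH S hK F₁ F₂ F₃ * tH S hK F₁' F₂' F₃' = tH S hK (F₁ * F₁') (F₂ * F₂') (F₃ * F₃') :=
  HAlg.bi_injective (tens3_conv S hK F₁.fin F₂.fin F₃.fin F₁'.bi F₂'.bi F₃'.bi)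

theorem tH_one : tH S hK 1 1 1 = 1 := HAlg.bi_injective (tens3_unit hK)

/-- the embedding in the `j`-th factor, as a function -/
noncomputable def jF (j : Fin 3) (F : HAlg K') : HAlg K :=
  if j = 0 then tH S hK F 1 1 else if j = 1 then tH S hK 1 F 1 else tH S hK 1 1 F

theorem jF_zero (F : HAlg K') : jF S hK 0 F = tH S hK F 1 1 := rfl
theorem jF_one (F : HAlg K') : jF S hK 1 F = tH S hK 1 F 1 := rfl
theorem jF_two (F : HAlg K') : jF S hK 2 F = tH S hK 1 1 F := rfl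

/-- **The embedding in the `j`-th factor.** -/
noncomputable def jH (j : Fin 3) : HAlg K' →ₐ[ℂ] HAlg K :=
  AlgHom.ofLinearMap
    { toFun := jF S hK j
      map_add' := fun F F' => by
        refine HAlg.ext fun x => ?_
        fin_cases j
        · change (tH S hK (F + F') 1 1).bi.f x = (tH S hK F 1 1 + tH S hK F' 1 1).bi.f x
          rw [HAlg.add_f, tH_f, tH_f, tH_f, HAlg.add_f]; ring
        · change (tH S hK 1 (F + F') 1).bi.f x = (tH S hK 1 F 1 + tH S hK 1 F' 1).bi.f x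
          rw [HAlg.add_f, tH_f, tH_f, tH_f, HAlg.add_f]; ring
        · change (tH S hK 1 1 (F + F')).bi.f x = (tH S hK 1 1 F + tH S hK 1 1 F').bi.f x
          rw [HAlg.add_f, tH_f, tH_f, tH_f, HAlg.add_f]; ring
      map_smul' := fun c F => by
        refine HAlg.ext fun x => ?_
        fin_cases j
        · change (tH S hK (c • F) 1 1).bi.f x = (c • tH S hK F 1 1).bi.f x
          rw [HAlg.smul_f, tH_f, tH_f, HAlg.smul_f]; ring
        · change (tH S hK 1 (c • F) 1).bi.f x = (c • tH S hK 1 F 1).bi.f x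
          rw [HAlg.smul_f, tH_f, tH_f, HAlg.smul_f]; ring
        · change (tH S hK 1 1 (c • F)).bi.f x = (c • tH S hK 1 1 F).bi.f x
          rw [HAlg.smul_f, tH_f, tH_f, HAlg.smul_f]; ring }
    (by
      fin_cases j
      · exact tH_one S hK
      · exact tH_one S hK
      · exact tH_one S hK)
    (fun F F' => by
      fin_cases j
      · change tH S hK (F * F') 1 1 = tH S hK F 1 1 * tH S hK F' 1 1
        rw [tH_mul, one_mul]
      · change tH S hK 1 (F * F') 1 = tH S hK 1 F 1 * tH S hK 1 F' 1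
        rw [tH_mul, one_mul]
      · change tH S hK 1 1 (F * F') = tH S hK 1 1 F * tH S hK 1 1 F'
        rw [tH_mul, one_mul])

theorem jH_zero (F : HAlg K') : jH S hK 0 F = tH S hK F 1 1 := rfl
theorem jH_one (F : HAlg K') : jH S hK 1 F = tH S hK 1 F 1 := rfl
theorem jH_two (F : HAlg K') : jH S hK 2 F = tH S hK 1 1 F := rfl

theorem jH_comm {i j : Fin 3} (hij : i ≠ j) (F F' : HAlg K') :
    Commute (jH S hK i F) (jH S hK j F') := by
  change jH S hK i F * jH S hK j F' = jH S hK j F' * jH S hK i F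
  fin_cases i <;> fin_cases j <;> first
    | exact absurd rfl hij
    | (simp only [Fin.zero_eta, Fin.mk_one, Fin.reduceFinMk, jH_zero, jH_one, jH_two, tH_mul,
        one_mul, mul_one])

theorem mul_eq_tH (F₁ F₂ F₃ : HAlg K') :
    jH S hK 0 F₁ * jH S hK 1 F₂ * jH S hK 2 F₃ = tH S hK F₁ F₂ F₃ := by
  rw [jH_zero, jH_one, jH_two, tH_mul, tH_mul]
  simp only [one_mul, mul_one]

include S in
/-- the twist by `σ` -/
theorem jH_twist (j : Fin 3) (F : HAlg K') (g : G) :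
    (jH S hK (j + 1) F).bi.f g = (jH S hK j F).bi.f (σ g) := by
  fin_cases j
  · change (tH S hK 1 F 1).bi.f g = (tH S hK F 1 1).bi.f (σ g)
    rw [tH_f, tH_f, S.cube]; ring
  · change (tH S hK 1 1 F).bi.f g = (tH S hK 1 F 1).bi.f (σ g)
    rw [tH_f, tH_f, S.cube]; ring
  · change (tH S hK F 1 1).bi.f g = (tH S hK 1 1 F).bi.f (σ g)
    rw [tH_f, tH_f, S.cube]; ring

theorem jH_symm {F : HAlg K'} (hF : ∀ g, F.bi.f g⁻¹ = F.bi.f g) (j : Fin 3) (g : G) :
    (jH S hK j F).bi.f g⁻¹ = (jH S hK j F).bi.f g := by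
  classical
  have h1 : ∀ g : H, (1 : HAlg K').bi.f g⁻¹ = (1 : HAlg K').bi.f g := fun g => by
    rw [HAlg.one_bi, BiInv.unit_f, BiInv.unit_f]
    have : g⁻¹ ∈ K' ↔ g ∈ K' := inv_mem_iff
    rw [if_congr this rfl rfl]
  fin_cases j
  · change (tH S hK F 1 1).bi.f g⁻¹ = (tH S hK F 1 1).bi.f g
    rw [tH_f, tH_f]; simp only [map_inv, hF, h1]
  · change (tH S hK 1 F 1).bi.f g⁻¹ = (tH S hK 1 F 1).bi.f g
    rw [tH_f, tH_f]; simp only [map_inv, hF, h1]
  · change (tH S hK 1 1 F).bi.f g⁻¹ = (tH S hK 1 1 F).bi.f g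
    rw [tH_f, tH_f]; simp only [map_inv, hF, h1]

theorem jH_real {F : HAlg K'} (hF : ∀ g, starRingEnd ℂ (F.bi.f g) = F.bi.f g) (j : Fin 3)
    (g : G) : starRingEnd ℂ ((jH S hK j F).bi.f g) = (jH S hK j F).bi.f g := by
  classical
  have h1 : ∀ g : H, starRingEnd ℂ ((1 : HAlg K').bi.f g) = (1 : HAlg K').bi.f g := fun g => by
    rw [HAlg.one_bi, BiInv.unit_f]
    split_ifs <;> simp
  fin_cases j
  · change starRingEnd ℂ ((tH S hK F 1 1).bi.f g) = (tH S hK F 1 1).bi.f g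
    rw [tH_f, map_mul, map_mul, hF, h1, h1]
  · change starRingEnd ℂ ((tH S hK 1 F 1).bi.f g) = (tH S hK 1 F 1).bi.f g
    rw [tH_f, map_mul, map_mul, hF, h1, h1]
  · change starRingEnd ℂ ((tH S hK 1 1 F).bi.f g) = (tH S hK 1 1 F).bi.f g
    rw [tH_f, map_mul, map_mul, hF, h1, h1]

end

end Fermat.Agent.LT.V0
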